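/-
IHARA [B] (B3) (q1) = (E) (helper6), part 1: **places fixed by a Frobenius-semilinear automorphism**.

`K` algebraically closed, `F/K` a function field with separating generator `x`,
`Ψ : SemilinearAut K F` with `Ψ.baseAut a = a ^ R` (`R ≥ 2`) and `Ψ • x = x`.

* `ihbq_baseAut_pow`, `ihbq_pow_smul`: the powers of `Ψ` are of the same kind;
* `ihbq_fixed_places_finite`: the set of places fixed by `Ψ` is finite (they are poles of `x` or
  zeros of `x ^ R - x`);
* `ihbq_periodic_places_finite`: the set of places fixed by some `Ψ ^ k`, `1 ≤ k ≤ g`, is finite;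
* `ihbq_exists_fixed_pole`: some power `Ψ ^ N`, `N ≥ 1`, fixes a place.
-/
import Mathlib
import Fermat.Prelude.Def_AlgebraicCurve_BaseChangeGalois
import Fermat.Agent.Lib.CurveP.RiemannRoch

set_option autoImplicit false
set_option linter.unusedSectionVars false
set_option linter.unusedVariables false
set_option linter.style.haveILetI false

namespace Fermat.Agent.Ihara

open AlgebraicCurve IntermediateField Fermat.Agent.Curve Fermat.Agent.CurveP PlaceAux

variable {K F : Type*} [Field K] [Field F] [Algebra K F]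

/-- the base automorphism of a power -/
theorem ihbq_baseAut_pow (Ψ : SemilinearAut K F) {R : ℕ}
    (hΨ : ∀ a : K, SemilinearAut.baseAut Ψ a = a ^ R) (n : ℕ) (a : K) :
    SemilinearAut.baseAut (Ψ ^ n) a = a ^ (R ^ n) := by
  induction n generalizing a with
  | zero => simp
  | succ n ih =>
    rw [pow_succ, SemilinearAut.baseAut_mul, RingAut.mul_apply, hΨ, ih, ← pow_mul, pow_succ,
      mul_comm]

/-- the powers fix what `Ψ` fixes -/
theorem ihbq_pow_smul {α : Type*} [MulAction (SemilinearAut K F) α] (Ψ : SemilinearAut K F)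
    {x : α} (hx : Ψ • x = x) (n : ℕ) : (Ψ ^ n) • x = x := by
  induction n with
  | zero => simp
  | succ n ih => rw [pow_succ, mul_smul, hx, ih]

theorem ihbq_two_le_pow {R : ℕ} (hR : 2 ≤ R) {n : ℕ} (hn : 1 ≤ n) : 2 ≤ R ^ n :=
  hR.trans (Nat.le_self_pow (by omega) R)

/-- pigeonhole: an element of a finite stable set is fixed by a small power -/
theorem ihbq_exists_pow_fixed {G α : Type*} [Group G] [MulAction G α] [DecidableEq α] (g : G)
    (S : Finset α) (hS : ∀ v ∈ S, g • v ∈ S) {v : α} (hv : v ∈ S) :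
    ∃ k : ℕ, 1 ≤ k ∧ k ≤ S.card ∧ (g ^ k) • v = v := by
  have hmem : ∀ i : ℕ, (g ^ i) • v ∈ S := by
    intro i
    induction i with
    | zero => simpa using hv
    | succ i ih =>
      rw [pow_succ', mul_smul]
      exact hS _ ih
  obtain ⟨i, hi, j, hj, hij, he⟩ := Finset.exists_ne_map_eq_of_card_lt_of_maps_to
    (s := Finset.range (S.card + 1)) (t := S) (f := fun i => (g ^ i) • v)
    (by rw [Finset.card_range]; omega) (fun i _ => hmem i)
  simp only [Finset.mem_range] at hi hj
  have key : ∀ i j : ℕ, i < j → j < S.card + 1 → (g ^ i) • v = (g ^ j) • v →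
      ∃ k : ℕ, 1 ≤ k ∧ k ≤ S.card ∧ (g ^ k) • v = v := by
    intro i j hlt hj he
    refine ⟨j - i, by omega, by omega, ?_⟩
    have h1 : g ^ j = g ^ i * g ^ (j - i) := by rw [← pow_add]; congr 1; omega
    rw [h1, mul_smul] at he
    exact (MulAction.injective (g ^ i) he).symm
  rcases lt_or_gt_of_ne hij with hlt | hlt
  · exact key i j hlt hj he
  · exact key j i hlt hi he.symm

section Places

variable [IsAlgClosed K] {x : F} (hx : IsFunctionFieldGen K F x)
  [Algebra.IsSeparable K⟮x⟯ F]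

include hx

omit [IsAlgClosed K] [Algebra.IsSeparable K⟮x⟯ F] in
theorem ihbq_sub_const_ne_zero (a : K) : x - algebraMap K F a ≠ 0 := by
  intro h0
  apply hx.transcendental
  rw [sub_eq_zero] at h0
  rw [h0]
  exact isAlgebraic_algebraMap a

omit [IsAlgClosed K] [Algebra.IsSeparable K⟮x⟯ F] in
theorem ihbq_pow_sub_self_ne_zero {R : ℕ} (hR : 2 ≤ R) : x ^ R - x ≠ 0 := by
  intro h0
  apply hx.transcendental
  refine ⟨Polynomial.X ^ R - Polynomial.X, ?_, by simpa using h0⟩
  intro hp
  have h1 := congrArg (fun p : Polynomial K => p.coeff R) hp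
  simp only [Polynomial.coeff_sub, Polynomial.coeff_X_pow, if_true, Polynomial.coeff_zero] at h1
  rw [Polynomial.coeff_X, if_neg (by omega), sub_zero] at h1
  exact one_ne_zero h1

/-- **the places fixed by `Ψ` are finite in number** -/
theorem ihbq_fixed_places_finite (Ψ : SemilinearAut K F) {R : ℕ} (hR : 2 ≤ R)
    (hΨ : ∀ a : K, SemilinearAut.baseAut Ψ a = a ^ R) (hΨx : Ψ • x = x) :
    {v : Place K F | Ψ • v = v}.Finite := by
  refine ((finite_poles_of hx x).union (finite_zeros_of hx (x ^ R - x))).subset ?_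
  intro v hv
  simp only [Set.mem_ofPred_eq] at hv
  simp only [Set.mem_union, Set.mem_ofPred_eq]
  by_cases hpole : v.ord x < 0
  · exact Or.inl hpole
  right
  have hxO : x ∈ v.toValuationSubring := mem_of_ord_nonneg v (by omega)
  obtain ⟨a, ha⟩ := exists_const_ordGE_one hx v hxO
  -- apply `Ψ`
  have h1 := SemilinearAut.ord_smul Ψ v (x - algebraMap K F a)
  rw [hv, smul_sub, hΨx, SemilinearAut.smul_algebraMap, hΨ] at h1
  have ha' : OrdGE v (x - algebraMap K F (a ^ R)) 1 := by
    rw [ordGE_iff]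
    right
    rw [h1]
    rcases (ordGE_iff v).mp ha with h0 | h0
    · exact absurd h0 (ihbq_sub_const_ne_zero hx a)
    · exact h0
  have haR : a = a ^ R := const_unique_of_ordGE_one v ha ha'
  -- `x ^ R - x = (x ^ R - a ^ R) - (x - a)`
  have hs : (∑ i ∈ Finset.range R, x ^ i * (algebraMap K F a) ^ (R - 1 - i))
      ∈ v.toValuationSubring := by
    refine sum_mem fun i _ => ?_
    exact mul_mem (pow_mem hxO i) (pow_mem (PlaceAux.algebraMap_mem v a) _)
  have h2 : OrdGE v (x ^ R - (algebraMap K F a) ^ R) 1 := by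
    rw [← Commute.geom_sum₂_mul (Commute.all x (algebraMap K F a)) R]
    have := ((ordGE_zero_iff_mem v).mpr hs).mul v ha
    rwa [zero_add] at this
  have h3 : x ^ R - x = (x ^ R - (algebraMap K F a) ^ R) - (x - algebraMap K F a) := by
    rw [← map_pow, ← haR]
    ring
  have h4 : OrdGE v (x ^ R - x) 1 := by
    rw [h3]
    exact h2.sub v ha
  rcases (ordGE_iff v).mp h4 with h0 | h0
  · exact absurd h0 (ihbq_pow_sub_self_ne_zero hx hR)
  · omega

/-- the set of places fixed by some `Ψ ^ k`, `1 ≤ k ≤ g`, is finite -/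
theorem ihbq_periodic_places_finite (Ψ : SemilinearAut K F) {R : ℕ} (hR : 2 ≤ R)
    (hΨ : ∀ a : K, SemilinearAut.baseAut Ψ a = a ^ R) (hΨx : Ψ • x = x) (g : ℕ) :
    {v : Place K F | ∃ k : ℕ, 1 ≤ k ∧ k ≤ g ∧ (Ψ ^ k) • v = v}.Finite := by
  have h1 : {v : Place K F | ∃ k : ℕ, 1 ≤ k ∧ k ≤ g ∧ (Ψ ^ k) • v = v}
      ⊆ ⋃ k ∈ Finset.Icc 1 g, {v : Place K F | (Ψ ^ k) • v = v} := by
    rintro v ⟨k, hk1, hkg, hkv⟩
    simp only [Set.mem_iUnion, Finset.mem_Icc]
    exact ⟨k, ⟨hk1, hkg⟩, hkv⟩
  refine Set.Finite.subset ?_ h1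
  refine Set.Finite.biUnion (Finset.finite_toSet _) fun k hk => ?_
  have hk' := Finset.mem_Icc.mp hk
  exact ihbq_fixed_places_finite hx (Ψ ^ k) (ihbq_two_le_pow hR hk'.1)
    (ihbq_baseAut_pow Ψ hΨ k) (ihbq_pow_smul Ψ hΨx k)

/-- `x` has a pole -/
theorem ihbq_exists_pole : ∃ v : Place K F, v.ord x < 0 := by
  by_contra hcon
  push Not at hcon
  have h1 : x ∈ riemannRochSpace (0 : Divisor K F) := by
    rw [mem_riemannRochSpace_iff]
    intro v
    right
    simpa using hcon v
  rw [riemannRochSpace_zero hx] at h1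
  obtain ⟨c, hc⟩ := h1
  apply hx.transcendental
  rw [← hc]
  exact isAlgebraic_algebraMap c

/-- **some power `Ψ ^ N`, `N ≥ 1`, fixes a place** (a pole of `x`) -/
theorem ihbq_exists_fixed_pole (Ψ : SemilinearAut K F) (hΨx : Ψ • x = x) :
    ∃ (N : ℕ) (P : Place K F), 1 ≤ N ∧ (Ψ ^ N) • P = P := by
  classical
  obtain ⟨v, hv⟩ := ihbq_exists_pole hx
  set S : Finset (Place K F) := (finite_poles_of hx x).toFinset with hS
  have hvS : v ∈ S := by
    rw [hS, Set.Finite.mem_toFinset]
    exact hv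
  have hstab : ∀ w ∈ S, Ψ • w ∈ S := by
    intro w hw
    rw [hS, Set.Finite.mem_toFinset] at hw ⊢
    simp only [Set.mem_ofPred_eq] at hw ⊢
    have h1 := SemilinearAut.ord_smul Ψ w x
    rw [hΨx] at h1
    rw [h1]
    exact hw
  obtain ⟨k, hk1, -, hk⟩ := ihbq_exists_pow_fixed Ψ S hstab hvS
  exact ⟨k, v, hk1, hk⟩

end Places

end Fermat.Agent.Ihara
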