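/-
IHARA [B] (B3) (q1) = (E) (helper6), part 2: **finitely many effective divisors of bounded degree
fixed by a Frobenius-semilinear automorphism**.

* `ihbq_degree_eq_sum`: over an algebraically closed field the degree is the sum of the
  multiplicities;
* `ihbq_apply_le_degree`, `ihbq_card_support_le_degree` for effective divisors;
* `ihbq_fixed_divisors_finite`: `{D ≥ 0 | deg D ≤ g, Ψ • D = D}` is finite.
-/
import Mathlib
import Fermat.Agent.Lib.Ihara.B.Cmp.FinPlaces

set_option autoImplicit false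
set_option linter.unusedSectionVars false
set_option linter.unusedVariables false
set_option linter.style.haveILetI false

namespace Fermat.Agent.Ihara

open AlgebraicCurve IntermediateField Fermat.Agent.Curve Fermat.Agent.CurveP PlaceAux

variable {K F : Type*} [Field K] [Field F] [Algebra K F]

section Div

variable [IsAlgClosed K] {x : F} (hx : IsFunctionFieldGen K F x)
  [Algebra.IsSeparable K⟮x⟯ F]

include hx

omit [Algebra.IsSeparable K⟮x⟯ F] in
/-- the degree is the sum of the multiplicities -/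
theorem ihbq_degree_eq_sum (D : Divisor K F) : Divisor.degree D = ∑ v ∈ D.support, D v := by
  rw [Divisor.degree, Finsupp.liftAddHom_apply, Finsupp.sum]
  refine Finset.sum_congr rfl fun v _ => ?_
  rw [AddMonoidHom.coe_mulRight, deg_eq_one hx v, Nat.cast_one]
  exact mul_one _

omit [Algebra.IsSeparable K⟮x⟯ F] in
theorem ihbq_apply_le_degree {D : Divisor K F} (hD : 0 ≤ D) (v : Place K F) :
    D v ≤ Divisor.degree D := by
  rw [ihbq_degree_eq_sum hx D]
  by_cases hv : v ∈ D.support
  · exact Finset.single_le_sum (f := fun w => D w) (fun w _ => hD w) hv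
  · rw [Finsupp.notMem_support_iff.mp hv]
    exact Finset.sum_nonneg fun w _ => hD w

omit [Algebra.IsSeparable K⟮x⟯ F] in
theorem ihbq_card_support_le_degree {D : Divisor K F} (hD : 0 ≤ D) :
    (D.support.card : ℤ) ≤ Divisor.degree D := by
  rw [ihbq_degree_eq_sum hx D]
  have h1 : ∀ v ∈ D.support, (1 : ℤ) ≤ D v := by
    intro v hv
    have h2 := hD v
    have h3 := Finsupp.mem_support_iff.mp hv
    rw [Finsupp.zero_apply] at h2
    omega
  calc (D.support.card : ℤ) = ∑ v ∈ D.support, (1 : ℤ) := by simp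
    _ ≤ ∑ v ∈ D.support, D v := Finset.sum_le_sum h1

/-- **finitely many effective divisors of bounded degree are fixed by `Ψ`** -/
theorem ihbq_fixed_divisors_finite (Ψ : SemilinearAut K F) {R : ℕ} (hR : 2 ≤ R)
    (hΨ : ∀ a : K, SemilinearAut.baseAut Ψ a = a ^ R) (hΨx : Ψ • x = x) (g : ℕ) :
    {D : Divisor K F | 0 ≤ D ∧ Divisor.degree D ≤ g ∧ Ψ • D = D}.Finite := by
  classical
  have hT := ihbq_periodic_places_finite hx Ψ hR hΨ hΨx g
  set T : Set (Place K F) := {v : Place K F | ∃ k : ℕ, 1 ≤ k ∧ k ≤ g ∧ (Ψ ^ k) • v = v} with hTdef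
  haveI : Finite ↥T := hT.to_subtype
  -- the divisors in question are supported in `T` with multiplicities in `[0, g]`
  have hmaps : Set.MapsTo (fun (D : Divisor K F) (v : ↥T) => D (v : Place K F))
      {D : Divisor K F | 0 ≤ D ∧ Divisor.degree D ≤ g ∧ Ψ • D = D}
      (Set.pi Set.univ fun _ : ↥T => Set.Icc (0 : ℤ) g) := by
    rintro D ⟨hD0, hDg, -⟩ v -
    exact ⟨hD0 _, (ihbq_apply_le_degree hx hD0 _).trans hDg⟩
  have hinj : Set.InjOn (fun (D : Divisor K F) (v : ↥T) => D (v : Place K F))
      {D : Divisor K F | 0 ≤ D ∧ Divisor.degree D ≤ g ∧ Ψ • D = D} := by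
    have hsupp : ∀ D : Divisor K F, 0 ≤ D → Divisor.degree D ≤ g → Ψ • D = D →
        ∀ v ∈ D.support, v ∈ T := by
      intro D hD0 hDg hDΨ v hv
      have hstab : ∀ w ∈ D.support, Ψ • w ∈ D.support := by
        intro w hw
        rw [Finsupp.mem_support_iff] at hw ⊢
        have h1 := SemilinearAut.divisor_smul_apply_smul Ψ D w
        rw [hDΨ] at h1
        rwa [h1]
      obtain ⟨k, hk1, hk2, hk⟩ := ihbq_exists_pow_fixed Ψ D.support hstab hv
      refine ⟨k, hk1, ?_, hk⟩
      have h2 := (ihbq_card_support_le_degree hx hD0).trans hDg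
      exact_mod_cast (show (k : ℤ) ≤ g from (by exact_mod_cast hk2 : (k : ℤ) ≤ D.support.card).trans h2)
    rintro D ⟨hD0, hDg, hDΨ⟩ D' ⟨hD'0, hD'g, hD'Ψ⟩ he
    ext v
    by_cases hv : v ∈ T
    · exact congrFun he ⟨v, hv⟩
    · have h1 : D v = 0 := by
        by_contra h0
        exact hv (hsupp D hD0 hDg hDΨ v (Finsupp.mem_support_iff.mpr h0))
      have h2 : D' v = 0 := by
        by_contra h0
        exact hv (hsupp D' hD'0 hD'g hD'Ψ v (Finsupp.mem_support_iff.mpr h0))
      rw [h1, h2]
  exact Set.Finite.of_injOn hmaps hinj (Set.Finite.pi fun _ => Set.finite_Icc _ _)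

end Div

end Fermat.Agent.Ihara
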