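/-
IHARA [B] (B3) (q1) = (E) (helper6), part 3: **finiteness of the Frobenius-fixed classes**.

`K` algebraically closed, `F/K` a function field with separating generator `x`,
`Φ : SemilinearAut K F` with `Φ.baseAut a = a ^ R` (`R ≥ 2`) and `Φ • x = x`.  Then
`{c : Pic0 K F | Φ • c = c}` is finite (`ihbq_fixed_finite'`; `ihbq_fixed_finite` is the form with
`R = q ^ f`).

Proof: replacing `Φ` by a power we may assume that `Φ` fixes a place `P₀` (a pole of `x`).  For a
class `c` let `d` be minimal such that `c + d P₀` contains an effective divisor (`d ≤ g` by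
Riemann's inequality); by minimality `L(c + (d - 1) P₀) = 0`, so any two nonzero elements of
`L(c + d P₀)` are proportional (`ihbq_proportional`) and the effective divisor `D` in `c + d P₀` is
unique; if `c` is fixed by `Φ` then `Φ • D` is another one, hence `Φ • D = D`.  There are finitely
many effective divisors of degree `≤ g` fixed by `Φ` (`ihbq_fixed_divisors_finite`).
-/
import Mathlib
import Fermat.Agent.Lib.Ihara.B.Cmp.FinDiv

set_option autoImplicit false
set_option linter.unusedSectionVars false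
set_option linter.unusedVariables false
set_option linter.style.haveILetI false

namespace Fermat.Agent.Ihara

open AlgebraicCurve IntermediateField Fermat.Agent.Curve Fermat.Agent.CurveP PlaceAux

variable {K F : Type*} [Field K] [Field F] [Algebra K F]

section Main

variable [IsAlgClosed K] {x : F} (hx : IsFunctionFieldGen K F x)
  [Algebra.IsSeparable K⟮x⟯ F]

include hx

/-- **proportionality**: if `L(E - P) = 0` then any two elements of `L(E)` are proportional -/
theorem ihbq_proportional (E : Divisor K F) (P : Place K F)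
    (hbot : riemannRochSpace (E - Finsupp.single P 1) = ⊥) {a b : F}
    (ha : a ∈ riemannRochSpace E) (hb : b ∈ riemannRochSpace E) (hb0 : b ≠ 0) :
    ∃ c : K, a = algebraMap K F c * b := by
  classical
  -- an element of `L(E)` with a better order at `P` is zero
  have hzero : ∀ u : F, u ∈ riemannRochSpace E → (u = 0 ∨ -E P + 1 ≤ P.ord u) → u = 0 := by
    intro u hu hP
    have hmem : u ∈ riemannRochSpace (E - Finsupp.single P 1) := by
      rw [mem_riemannRochSpace_iff] at hu ⊢
      intro v
      rcases hu v with h0 | h0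
      · exact Or.inl h0
      · by_cases hv : v = P
        · subst hv
          rcases hP with h1 | h1
          · exact Or.inl h1
          · right
            rw [Finsupp.sub_apply, Finsupp.single_eq_same]
            omega
        · right
          rw [Finsupp.sub_apply, Finsupp.single_eq_of_ne hv, sub_zero]
          exact h0
    rw [hbot, Submodule.mem_bot] at hmem
    exact hmem
  by_cases ha0 : a = 0
  · exact ⟨0, by rw [ha0, map_zero, zero_mul]⟩
  have hordb : P.ord b = -E P := by
    rcases (mem_riemannRochSpace_iff.mp hb) P with h0 | h0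
    · exact absurd h0 hb0
    · by_contra hne
      exact hb0 (hzero b hb (Or.inr (by omega)))
  have horda : P.ord a = -E P := by
    rcases (mem_riemannRochSpace_iff.mp ha) P with h0 | h0
    · exact absurd h0 ha0
    · by_contra hne
      exact ha0 (hzero a ha (Or.inr (by omega)))
  -- `y = a / b` is a unit at `P`
  have hy0 : a / b ≠ 0 := div_ne_zero ha0 hb0
  have hyord : P.ord (a / b) = 0 := by
    rw [div_eq_mul_inv, P.ord_mul ha0 (inv_ne_zero hb0), P.ord_inv, horda, hordb]
    ring
  have hyO : a / b ∈ P.toValuationSubring := mem_of_ord_nonneg P (by omega)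
  obtain ⟨c, hc⟩ := exists_const_ordGE_one hx P hyO
  refine ⟨c, ?_⟩
  have hu : a - algebraMap K F c * b ∈ riemannRochSpace E := by
    have := (riemannRochSpace E).sub_mem ha ((riemannRochSpace E).smul_mem c hb)
    rwa [Algebra.smul_def] at this
  have hfac : a - algebraMap K F c * b = b * (a / b - algebraMap K F c) := by
    field_simp
  have h0 := hzero _ hu (by
    by_cases hz : a - algebraMap K F c * b = 0
    · exact Or.inl hz
    · right
      have hz' : a / b - algebraMap K F c ≠ 0 := by
        intro h0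
        apply hz
        rw [hfac, h0, mul_zero]
      rw [hfac, P.ord_mul hb0 hz', hordb]
      rcases (ordGE_iff P).mp hc with h1 | h1
      · exact absurd h1 hz'
      · omega)
  exact sub_eq_zero.mp h0

omit [IsAlgClosed K] [Algebra.IsSeparable K⟮x⟯ F] hx in
/-- effective divisors stay effective -/
theorem ihbq_smul_nonneg (Φ : SemilinearAut K F) {D : Divisor K F} (hD : 0 ≤ D) : 0 ≤ Φ • D := by
  intro v
  rw [SemilinearAut.divisor_smul_apply]
  exact hD _

/-- the action on principal divisors -/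
theorem ihbq_smul_divOf (Φ : SemilinearAut K F) {a : F} (ha : a ≠ 0) :
    Φ • divOf hx a = divOf hx (Φ • a) := by
  have ha' : Φ • a ≠ 0 := by
    rw [SemilinearAut.smul_def]
    exact (map_ne_zero _).mpr ha
  ext v
  rw [SemilinearAut.divisor_smul_apply, divOf_apply hx ha, divOf_apply hx ha']
  have h1 := SemilinearAut.ord_smul Φ (Φ⁻¹ • v) a
  rw [smul_inv_smul] at h1
  exact h1.symm

omit [Algebra.IsSeparable K⟮x⟯ F] in
theorem ihbq_degree_sub_single (P₀ : Place K F) (D : Divisor K F) :
    D - Finsupp.single P₀ (Divisor.degree D) ∈ Divisor.degZero (K := K) (F := F) := by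
  rw [Divisor.mem_degZero, map_sub, Divisor.degree_single, deg_eq_one hx P₀, Nat.cast_one, mul_one,
    sub_self]

/-- the class of `D - (deg D) P₀` -/
noncomputable def ihbqCls (P₀ : Place K F) (D : Divisor K F) : Pic0 K F :=
  Pic0.mk ⟨D - Finsupp.single P₀ (Divisor.degree D), ihbq_degree_sub_single hx P₀ D⟩

/-- **a class fixed by `Φ` contains `D - (deg D) P₀` with `D` effective of degree `≤ g` fixed by
`Φ`**, if `Φ` fixes the place `P₀` -/
theorem ihbq_exists_fixed_effective (Φ : SemilinearAut K F) (P₀ : Place K F)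
    (hP₀ : Φ • P₀ = P₀) (c : Pic0 K F) (hc : Φ • c = c) :
    ∃ D : Divisor K F, 0 ≤ D ∧ Divisor.degree D ≤ genusR K F ∧ Φ • D = D ∧
      ihbqCls hx P₀ D = c := by
  classical
  obtain ⟨⟨D0, hD0⟩, rfl⟩ := Pic0.mk_surjective c
  have hdeg0 : Divisor.degree D0 = 0 := hD0
  have hdegE : ∀ d : ℕ, Divisor.degree (D0 + Finsupp.single P₀ (d : ℤ)) = d := by
    intro d
    rw [map_add, hdeg0, Divisor.degree_single, deg_eq_one hx P₀, Nat.cast_one, mul_one, zero_add]
  -- the minimal `d`
  have hS : ∃ d : ℕ, riemannRochSpace (D0 + Finsupp.single P₀ (d : ℤ)) ≠ ⊥ := by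
    refine ⟨genusR K F, fun hbot => ?_⟩
    have h1 := le_ell hx (D0 + Finsupp.single P₀ ((genusR K F : ℕ) : ℤ))
    rw [hdegE, ell, hbot, finrank_bot] at h1
    simp at h1
  set d₀ := Nat.find hS with hd₀
  have hne : riemannRochSpace (D0 + Finsupp.single P₀ (d₀ : ℤ)) ≠ ⊥ := Nat.find_spec hS
  have hle : d₀ ≤ genusR K F := by
    refine Nat.find_min' hS fun hbot => ?_
    have h1 := le_ell hx (D0 + Finsupp.single P₀ ((genusR K F : ℕ) : ℤ))
    rw [hdegE, ell, hbot, finrank_bot] at h1
    simp at h1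
  have hbot : riemannRochSpace (D0 + Finsupp.single P₀ (d₀ : ℤ) - Finsupp.single P₀ 1) = ⊥ := by
    rcases Nat.eq_zero_or_pos d₀ with h0 | hpos
    · apply riemannRochSpace_eq_bot hx
      rw [map_sub, hdegE, h0, Divisor.degree_single, deg_eq_one hx P₀]
      simp
    · have hmin := Nat.find_min hS (m := d₀ - 1) (by omega)
      rw [not_not] at hmin
      have h2 : D0 + Finsupp.single P₀ (d₀ : ℤ) - Finsupp.single P₀ 1
          = D0 + Finsupp.single P₀ ((d₀ - 1 : ℕ) : ℤ) := by
        rw [add_sub_assoc, ← Finsupp.single_sub]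
        congr 2
        omega
      rw [h2]
      exact hmin
  obtain ⟨a, ha, ha0⟩ := (Submodule.ne_bot_iff _).mp hne
  set E : Divisor K F := D0 + Finsupp.single P₀ (d₀ : ℤ) with hE
  have hD : 0 ≤ E + divOf hx a := RRAux.add_divOf_nonneg hx ha ha0
  have hdegD : Divisor.degree (E + divOf hx a) = d₀ := by
    rw [RRAux.degree_add_divOf, hE, hdegE]
  refine ⟨E + divOf hx a, hD, by rw [hdegD]; exact_mod_cast hle, ?_, ?_⟩
  · -- `Φ • D = D`
    have h1 : Pic0.mk (SemilinearAut.degZeroSMulHom Φ ⟨D0, hD0⟩) = Pic0.mk ⟨D0, hD0⟩ := by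
      rw [← SemilinearAut.pic0_smul_mk]
      exact hc
    have h2 := (QuotientAddGroup.eq).mp h1
    rw [AddSubgroup.mem_addSubgroupOf] at h2
    obtain ⟨u, hu0, hu⟩ := h2
    have hu' : ∀ v : Place K F, (Φ • D0) v = D0 v - v.ord u := by
      intro v
      have := hu v
      simp only [AddSubgroup.coe_add, AddSubgroup.coe_neg, SemilinearAut.coe_degZeroSMulHom,
        Finsupp.add_apply, Finsupp.neg_apply] at this
      omega
    have hΦa0 : Φ • a ≠ 0 := by
      rw [SemilinearAut.smul_def]
      exact (map_ne_zero _).mpr ha0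
    have hΦD : Φ • (E + divOf hx a) = Φ • D0 + Finsupp.single P₀ (d₀ : ℤ) + divOf hx (Φ • a) := by
      rw [smul_add, hE, smul_add, SemilinearAut.smul_single, hP₀, ihbq_smul_divOf hx Φ ha0]
    set b : F := u⁻¹ * (Φ • a) with hb
    have hb0 : b ≠ 0 := mul_ne_zero (inv_ne_zero hu0) hΦa0
    have hordb : ∀ v : Place K F, v.ord b = - v.ord u + v.ord (Φ • a) := by
      intro v
      rw [hb, v.ord_mul (inv_ne_zero hu0) hΦa0, v.ord_inv]
    have hval : ∀ v : Place K F, (Φ • (E + divOf hx a)) v = E v + v.ord b := by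
      intro v
      rw [hΦD, Finsupp.add_apply, Finsupp.add_apply, hu' v, divOf_apply hx hΦa0, hordb, hE,
        Finsupp.add_apply]
      ring
    have hbE : b ∈ riemannRochSpace E := by
      rw [mem_riemannRochSpace_iff]
      intro v
      right
      have h3 := ihbq_smul_nonneg Φ hD v
      rw [hval v, Finsupp.zero_apply] at h3
      omega
    obtain ⟨lam, hlam⟩ := ihbq_proportional hx E P₀ hbot hbE ha ha0
    have hlam0 : algebraMap K F lam ≠ 0 := by
      intro h0
      apply hb0
      rw [hlam, h0, zero_mul]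
    ext v
    have h5 : (E + divOf hx a) v = E v + v.ord a := by
      rw [Finsupp.add_apply, divOf_apply hx ha0]
    rw [hval v, h5, hlam, v.ord_mul hlam0 ha0, PlaceAux.ord_algebraMap v lam, zero_add]
  · -- the class
    unfold ihbqCls
    refine (QuotientAddGroup.eq).mpr ?_
    rw [AddSubgroup.mem_addSubgroupOf]
    refine ⟨a⁻¹, inv_ne_zero ha0, fun v => ?_⟩
    simp only [AddSubgroup.coe_add, AddSubgroup.coe_neg, Finsupp.add_apply, Finsupp.neg_apply,
      Finsupp.sub_apply]
    have h6 : E v = D0 v + (Finsupp.single P₀ (d₀ : ℤ)) v := by rw [hE, Finsupp.add_apply]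
    rw [hdegD, divOf_apply hx ha0, v.ord_inv, h6]
    ring

/-- finiteness of the fixed classes when `Φ` fixes a place -/
theorem ihbq_fixed_finite_of_fixed_place (Φ : SemilinearAut K F) {R : ℕ} (hR : 2 ≤ R)
    (hΦ : ∀ a : K, SemilinearAut.baseAut Φ a = a ^ R) (hΦx : Φ • x = x) (P₀ : Place K F)
    (hP₀ : Φ • P₀ = P₀) : {c : Pic0 K F | Φ • c = c}.Finite := by
  refine ((ihbq_fixed_divisors_finite hx Φ hR hΦ hΦx (genusR K F)).image
    (ihbqCls hx P₀)).subset ?_
  intro c hc
  obtain ⟨D, h1, h2, h3, h4⟩ := ihbq_exists_fixed_effective hx Φ P₀ hP₀ c hc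
  exact ⟨D, ⟨h1, h2, h3⟩, h4⟩

/-- **FINITENESS OF THE FROBENIUS-FIXED CLASSES**: `K` algebraically closed, `F/K` a function
field with separating generator `x`, `Φ` a semilinear automorphism of `F/K` acting on `K` by
`a ↦ a ^ R`, `R ≥ 2`, and fixing `x`.  Then `Pic⁰(F)^{Φ}` is finite. -/
theorem ihbq_fixed_finite' (Φ : SemilinearAut K F) {R : ℕ} (hR : 2 ≤ R)
    (hΦ : ∀ a : K, SemilinearAut.baseAut Φ a = a ^ R) (hΦx : Φ • x = x) :
    {c : Pic0 K F | Φ • c = c}.Finite := by
  obtain ⟨N, P, hN, hP⟩ := ihbq_exists_fixed_pole hx Φ hΦx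
  refine (ihbq_fixed_finite_of_fixed_place hx (Φ ^ N) (ihbq_two_le_pow hR hN)
    (ihbq_baseAut_pow Φ hΦ N) (ihbq_pow_smul Φ hΦx N) P hP).subset ?_
  intro c hc
  exact ihbq_pow_smul Φ hc N

/-- the same, in the shape of the interface of (B3): `Φ.baseAut a = a ^ (q ^ f)`, `f ≥ 1` -/
theorem ihbq_fixed_finite (q : ℕ) [Fact q.Prime] [CharP K q] [HasPrincipalDivisors K F]
    (Φ : SemilinearAut K F) (f : ℕ) (hf : 1 ≤ f)
    (hΦ : ∀ a : K, SemilinearAut.baseAut Φ a = a ^ (q ^ f)) (hΦx : Φ • x = x) :
    {c : Pic0 K F | Φ • c = c}.Finite :=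
  ihbq_fixed_finite' hx Φ (ihbq_two_le_pow (Fact.out : q.Prime).two_le hf) hΦ hΦx

/-- consequence used by the comparison: the fixed classes are killed by a positive integer -/
theorem ihbq_fixed_exponent (Φ : SemilinearAut K F) {R : ℕ} (hR : 2 ≤ R)
    (hΦ : ∀ a : K, SemilinearAut.baseAut Φ a = a ^ R) (hΦx : Φ • x = x) :
    ∃ m : ℕ, 0 < m ∧ ∀ c : Pic0 K F, Φ • c = c → m • c = 0 := by
  classical
  have hfin := ihbq_fixed_finite' hx Φ hR hΦ hΦx
  -- the fixed classes form a finite subgroup
  let B : AddSubgroup (Pic0 K F) :=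
    { carrier := {c : Pic0 K F | Φ • c = c}
      zero_mem' := smul_zero Φ
      add_mem' := fun {a b} ha hb => by
        show Φ • (a + b) = a + b
        rw [smul_add, ha, hb]
      neg_mem' := fun {a} ha => by
        show Φ • (-a) = -a
        rw [smul_neg, ha] }
  haveI : Finite ↥B := hfin.to_subtype
  refine ⟨Nat.card ↥B, Nat.card_pos, fun c hc => ?_⟩
  have h1 : Nat.card ↥B • (⟨c, hc⟩ : ↥B) = 0 := card_nsmul_eq_zero'
  have h2 : ((Nat.card ↥B • (⟨c, hc⟩ : ↥B) : ↥B) : Pic0 K F) = ((0 : ↥B) : Pic0 K F) :=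
    congrArg (fun z : ↥B => (z : Pic0 K F)) h1
  rw [AddSubgroup.coe_nsmul, AddSubgroup.coe_zero] at h2
  exact h2

end Main

end Fermat.Agent.Ihara
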