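/-
IHARA [B] (B3) (q1) = (E) (helper6), part 4: **the modular instance of the finiteness of the
Frobenius-fixed classes**: for a level `M` prime to `𝔓.p`, `κ` the residue field of `𝔓`,
`F̄_M = tbBarF 𝔓 M`, `Φ = t3bPhi 𝔓 M` the coefficientwise Frobenius and `f ≥ 1`:

* `ihbq_t3bPhi_pow_baseAut`, `ihbq_t3bPhi_smul_tbBarJ`;
* `ihbq_fixed_finite_modular`: `{c : Pic0 κ F̄_M | Φ ^ f • c = c}` is finite;
* `ihbq_fixed_exponent_modular`: it is killed by a positive integer.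
-/
import Mathlib
import Fermat.Agent.Lib.Ihara.B.Cmp.FinMain
import Fermat.Agent.Lib.T3.Gal.Mod
import Fermat.Agent.Lib.T1.Inst.UpperQ

set_option autoImplicit false
set_option linter.unusedSectionVars false
set_option linter.unusedVariables false
set_option linter.style.haveILetI false
set_option synthInstance.maxHeartbeats 400000

namespace Fermat.Agent.Ihara

open AlgebraicCurve IntermediateField Fermat.Agent.Curve Fermat.Agent.CurveP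
  Fermat.Agent.T1 Fermat.Agent.T3 Fermat.Agent.TW ModularCurve

variable (𝔓 : FFPlace) (M : ℕ) [NeZero M]

/-- the base automorphism of the powers of the coefficientwise Frobenius -/
theorem ihbq_t3bPhi_pow_baseAut (f : ℕ) (a : IsLocalRing.ResidueField ↥𝔓.P) :
    SemilinearAut.baseAut (t3bPhi 𝔓 M ^ f) a = a ^ (𝔓.p ^ f) :=
  ihbq_baseAut_pow (t3bPhi 𝔓 M) (baseAut_t3bPhi 𝔓 M) f a

/-- the coefficientwise Frobenius fixes `j̄` -/
theorem ihbq_t3bPhi_smul_tbBarJ : t3bPhi 𝔓 M • tbBarJ 𝔓 M = tbBarJ 𝔓 M := by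
  haveI : Fact 𝔓.p.Prime := ⟨𝔓.hp⟩
  haveI : CharP (IsLocalRing.ResidueField ↥𝔓.P) 𝔓.p := t3b_charP 𝔓
  apply Subtype.ext
  rw [coe_t3bPhi_smul]
  exact coeffMap_jqModC _

/-- **finiteness of the Frobenius-fixed classes of the reduced modular function field** -/
theorem ihbq_fixed_finite_modular (hM : ¬ 𝔓.p ∣ M) (f : ℕ) (hf : 1 ≤ f) :
    {c : Pic0 (IsLocalRing.ResidueField ↥𝔓.P) ↥(tbBarF 𝔓 M) | (t3bPhi 𝔓 M ^ f) • c = c}.Finite := by
  haveI : IsAlgClosed (IsLocalRing.ResidueField ↥𝔓.P) := tb_isAlgClosed_residueField 𝔓.P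
  haveI := tbq_bar_isSeparable (𝔓 := 𝔓) (N := M) hM
  exact ihbq_fixed_finite' (tbq_bar_isFunctionFieldGen 𝔓 M) (t3bPhi 𝔓 M ^ f)
    (ihbq_two_le_pow 𝔓.hp.two_le hf) (ihbq_t3bPhi_pow_baseAut 𝔓 M f)
    (ihbq_pow_smul (t3bPhi 𝔓 M) (ihbq_t3bPhi_smul_tbBarJ 𝔓 M) f)

/-- the Frobenius-fixed classes are killed by a positive integer -/
theorem ihbq_fixed_exponent_modular (hM : ¬ 𝔓.p ∣ M) (f : ℕ) (hf : 1 ≤ f) :
    ∃ m : ℕ, 0 < m ∧ ∀ c : Pic0 (IsLocalRing.ResidueField ↥𝔓.P) ↥(tbBarF 𝔓 M),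
      (t3bPhi 𝔓 M ^ f) • c = c → m • c = 0 := by
  haveI : IsAlgClosed (IsLocalRing.ResidueField ↥𝔓.P) := tb_isAlgClosed_residueField 𝔓.P
  haveI := tbq_bar_isSeparable (𝔓 := 𝔓) (N := M) hM
  exact ihbq_fixed_exponent (tbq_bar_isFunctionFieldGen 𝔓 M) (t3bPhi 𝔓 M ^ f)
    (ihbq_two_le_pow 𝔓.hp.two_le hf) (ihbq_t3bPhi_pow_baseAut 𝔓 M f)
    (ihbq_pow_smul (t3bPhi 𝔓 M) (ihbq_t3bPhi_smul_tbBarJ 𝔓 M) f)

end Fermat.Agent.Ihara
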