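/-
IHARA track, package [B] (Mazur's principle), sub-package (B3) = comparison characteristic `0` /
characteristic `q` at a level prime to `q` (helper3), part 1: **generic algebra**.

* `ihbc_exists_eigenvector` : a ring homomorphism `ψ` from a finite commutative ring `A` to a domain
  and a finite faithful `A`-module `V` : some `v ≠ 0` is killed by `ker ψ` (minimal primes are
  associated primes; cf. helper7's `ihd_exists_eigenvector`);
* `ihbc_exists_separating` : `R` a (non-commutative) ring acting on a finite abelian group `V` through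
  commuting endomorphisms, `θ : R →+* k`; if no `v ≠ 0` is killed by `ker θ` then some `r` acts as
  zero on `V` with `θ r ≠ 0`;
* `ihbc_exists_monic_kill` : an endomorphism `A` of a finite free `ℤ`-module with `A L ⊆ p L` is
  killed by a monic integral polynomial congruent to `X ^ n` modulo `p`.
-/
import Mathlib

set_option autoImplicit false
set_option linter.unusedSectionVars false
set_option linter.unusedVariables false
set_option linter.style.haveILetI false

namespace Fermat.Agent.Ihara

section Eigen

variable {A : Type*} [CommRing A] [Finite A] {V : Type*} [AddCommGroup V] [Module A V]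
  [Module.Finite A V] {k : Type*} [CommRing k] [IsDomain k]

/-- in a finite commutative ring the kernel of a homomorphism to a domain is a minimal prime -/
theorem ihbc_ker_mem_minimalPrimes (ψ : A →+* k) :
    RingHom.ker ψ ∈ (⊥ : Ideal A).minimalPrimes := by
  haveI : IsArtinianRing A := inferInstance
  have hprime : (RingHom.ker ψ).IsPrime := RingHom.ker_isPrime ψ
  refine ⟨⟨hprime, bot_le⟩, ?_⟩
  rintro 𝔮 ⟨h𝔮, -⟩ h𝔮𝔭
  haveI := h𝔮
  have hmax : 𝔮.IsMaximal := IsArtinianRing.isMaximal_of_isPrime 𝔮
  rcases hmax.eq_of_le hprime.ne_top h𝔮𝔭 with h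
  exact h.ge

/-- **an eigenvector for a point of a finite commutative ring acting faithfully** -/
theorem ihbc_exists_eigenvector (hfaith : ∀ t : A, (∀ x : V, t • x = 0) → t = 0) (ψ : A →+* k) :
    ∃ x : V, x ≠ 0 ∧ ∀ t : A, ψ t = 0 → t • x = 0 := by
  haveI : IsNoetherianRing A := inferInstance
  have hann : Module.annihilator A V = ⊥ := by
    rw [eq_bot_iff]
    intro t ht
    rw [Ideal.mem_bot]
    exact hfaith t fun x => Module.mem_annihilator.mp ht x
  have hmin := ihbc_ker_mem_minimalPrimes (A := A) ψ
  rw [← hann] at hmin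
  have hass := Module.associatedPrimes.minimalPrimes_annihilator_subset_associatedPrimes A V hmin
  obtain ⟨hprime, x, hx⟩ := (isAssociatedPrime_iff).mp hass
  refine ⟨x, ?_, fun t ht => ?_⟩
  · rintro rfl
    apply hprime.ne_top
    rw [hx, eq_top_iff]
    intro t _
    rw [Submodule.mem_colon_singleton, smul_zero]
    exact Submodule.zero_mem _
  · have h1 : t ∈ RingHom.ker ψ := ht
    rw [hx, Submodule.mem_colon_singleton, Submodule.mem_bot] at h1
    exact h1

end Eigen

section Separating

variable {R : Type*} [Ring R] {K : Type*} [CommRing K] {V : Type*} [AddCommGroup V] [Module K V]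
  [Finite V] {k : Type*} [CommRing k] [IsDomain k]

/-- **a separating element**: if the (non-commutative) ring `R` acts on the finite module `V`
through commuting endomorphisms and no `v ≠ 0` is killed by the kernel of `θ : R →+* k`, then some
`r` with `θ r ≠ 0` acts as zero. -/
theorem ihbc_exists_separating (ρ : R →+* Module.End K V)
    (hcomm : ∀ r s : R, ρ r * ρ s = ρ s * ρ r) (θ : R →+* k)
    (hno : ∀ v : V, (∀ r : R, θ r = 0 → ρ r v = 0) → v = 0) :
    ∃ r : R, ρ r = 0 ∧ θ r ≠ 0 := by
  classical
  by_contra hcon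
  push Not at hcon
  letI : CommRing ρ.range :=
    { (inferInstance : Ring ρ.range) with
      mul_comm := by
        rintro ⟨_, a, rfl⟩ ⟨_, b, rfl⟩
        exact Subtype.ext (hcomm a b) }
  haveI : Finite (Module.End K V) :=
    Finite.of_injective (fun f : Module.End K V => (f : V → V)) DFunLike.coe_injective
  haveI : Finite ρ.range := Finite.of_injective (fun f : ρ.range => (f : Module.End K V))
    Subtype.val_injective
  haveI : Module.Finite ρ.range V := Module.Finite.of_finite
  have hsurj : Function.Surjective ρ.rangeRestrict := ρ.rangeRestrict_surjective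
  have hker : RingHom.ker ρ.rangeRestrict ≤ RingHom.ker θ := by
    intro r hr
    rw [RingHom.mem_ker] at hr ⊢
    apply hcon r
    have := congrArg (fun f : ρ.range => (f : Module.End K V)) hr
    exact this
  let ψ : ρ.range →+* k := ρ.rangeRestrict.liftOfSurjective hsurj ⟨θ, hker⟩
  have hψ : ∀ r : R, ψ (ρ.rangeRestrict r) = θ r := fun r =>
    RingHom.liftOfRightInverse_comp_apply ρ.rangeRestrict _
      (Function.rightInverse_surjInv hsurj) ⟨θ, hker⟩ r
  have hfaith : ∀ t : ρ.range, (∀ x : V, t • x = 0) → t = 0 := by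
    intro t ht
    apply Subtype.ext
    apply LinearMap.ext
    intro x
    exact ht x
  obtain ⟨v, hv0, hv⟩ := ihbc_exists_eigenvector (A := ρ.range) (V := V) hfaith ψ
  apply hv0
  apply hno v
  intro r hr
  have h1 := hv (ρ.rangeRestrict r) (by rw [hψ, hr])
  exact h1

end Separating

section Monic

open Polynomial

variable {L : Type*} [AddCommGroup L] [Module.Free ℤ L] [Module.Finite ℤ L]

/-- an endomorphism divisible by `p` is `p` times an endomorphism -/
theorem ihbc_exists_div (p : ℤ) (A : Module.End ℤ L) (hA : ∀ v : L, ∃ w : L, A v = p • w) :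
    ∃ B : Module.End ℤ L, A = p • B := by
  classical
  let b := Module.Free.chooseBasis ℤ L
  choose w hw using fun i => hA (b i)
  refine ⟨b.constr ℤ w, ?_⟩
  refine b.ext fun i => ?_
  rw [hw i, LinearMap.smul_apply, Module.Basis.constr_basis]

/-- **Cayley–Hamilton modulo `p`**: an endomorphism `A` of a finite free `ℤ`-module with
`A L ⊆ p L` is killed by an integral polynomial congruent to `X ^ n` modulo `p`. -/
theorem ihbc_exists_monic_kill (p : ℕ) (A : Module.End ℤ L) (hA : ∀ v : L, ∃ w : L, A v = (p : ℤ) • w) :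
    ∃ (P : ℤ[X]) (n : ℕ), aeval A P = 0 ∧ P.map (Int.castRingHom (ZMod p)) = X ^ n := by
  obtain ⟨B, rfl⟩ := ihbc_exists_div (p : ℤ) A hA
  refine ⟨scaleRoots B.charpoly (p : ℤ), B.charpoly.natDegree, ?_, ?_⟩
  · have h := scaleRoots_aeval_eq_zero (A := Module.End ℤ L) (r := (p : ℤ))
      (LinearMap.aeval_self_charpoly B)
    rw [Algebra.algebraMap_eq_smul_one, smul_mul_assoc, one_mul] at h
    exact h
  · have hmonic : B.charpoly.Monic := LinearMap.charpoly_monic B
    ext i
    rw [coeff_map, coeff_scaleRoots, coeff_X_pow, eq_intCast, Int.cast_mul, Int.cast_pow,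
      Int.cast_natCast]
    by_cases hi : i = B.charpoly.natDegree
    · rw [if_pos hi, hi, Nat.sub_self, pow_zero, mul_one, coeff_natDegree, hmonic.leadingCoeff,
        Int.cast_one]
    · rw [if_neg hi]
      rcases lt_or_gt_of_ne hi with h | h
      · have : B.charpoly.natDegree - i ≠ 0 := by omega
        rw [ZMod.natCast_self, zero_pow this, mul_zero]
      · rw [coeff_eq_zero_of_natDegree_lt h, Int.cast_zero, zero_mul]

end Monic

section Tensor

open scoped TensorProduct

variable {L : Type*} [AddCommGroup L] [Module.Free ℤ L] [Module.Finite ℤ L] (p : ℕ)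

/-- every element of `ZMod p ⊗ L` is a pure tensor `1 ⊗ v` -/
theorem ihbc_tensor_surj (x : ZMod p ⊗[ℤ] L) : ∃ v : L, x = (1 : ZMod p) ⊗ₜ[ℤ] v := by
  induction x using TensorProduct.induction_on with
  | zero => exact ⟨0, by rw [TensorProduct.tmul_zero]⟩
  | tmul a v =>
    obtain ⟨n, rfl⟩ := ZMod.intCast_surjective a
    refine ⟨n • v, ?_⟩
    rw [TensorProduct.tmul_smul, TensorProduct.smul_tmul', zsmul_eq_mul, mul_one]
  | add x y hx hy =>
    obtain ⟨v, rfl⟩ := hx
    obtain ⟨w, rfl⟩ := hy
    exact ⟨v + w, by rw [TensorProduct.tmul_add]⟩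

/-- `1 ⊗ v = 0` in `ZMod p ⊗ L` iff `v ∈ p L` -/
theorem ihbc_tmul_eq_zero_iff (v : L) :
    (1 : ZMod p) ⊗ₜ[ℤ] v = 0 ↔ ∃ w : L, v = (p : ℤ) • w := by
  classical
  constructor
  · intro h
    let b := Module.Free.chooseBasis ℤ L
    have h1 : ∀ i, ((b.repr v i : ℤ) : ZMod p) = 0 := by
      intro i
      have h2 := congrArg (fun x => (b.baseChange (ZMod p)).repr x i) h
      simp only [Module.Basis.baseChange_repr_tmul, map_zero, Finsupp.zero_apply] at h2
      rw [zsmul_eq_mul, mul_one] at h2
      exact h2
    have h3 : ∀ i, ∃ c : ℤ, b.repr v i = (p : ℤ) * c := by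
      intro i
      have := (ZMod.intCast_zmod_eq_zero_iff_dvd _ _).mp (h1 i)
      exact this
    choose c hc using h3
    refine ⟨∑ i, c i • b i, ?_⟩
    conv_lhs => rw [← b.sum_repr v]
    rw [Finset.smul_sum]
    refine Finset.sum_congr rfl fun i _ => ?_
    rw [hc i, mul_smul]
  · rintro ⟨w, rfl⟩
    rw [TensorProduct.tmul_smul, TensorProduct.smul_tmul', zsmul_eq_mul, mul_one,
      Int.cast_natCast, ZMod.natCast_self, TensorProduct.zero_tmul]

/-- `ZMod p ⊗ L` is finite -/
theorem ihbc_tensor_finite [NeZero p] : Finite (ZMod p ⊗[ℤ] L) :=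
  Module.finite_of_finite (ZMod p)

end Tensor

end Fermat.Agent.Ihara
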