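/-
IHARA track, package [B] (Mazur's principle), sub-package (B3) (helper3), part 2: **a Hecke
operator killing the torsion of `J₀(M)(ℚ̄)` but not the eigensystem `θ`**.

`S` a set of primes not dividing `M`, `a : Nat.Primes → ℤ`, `p` a prime.  Non-commutative
polynomials `h ∈ FreeAlgebra ℤ S` are evaluated
* on the lattice `L = parabolicHoms ℤ Γ₀(M) ℤ`       : `ihbcRhoL`,
* on `J₀(M)(ℚ̄)` (through `heckeOperatorBar`)         : `ihbcRhoJ`,
* at the eigensystem (`X_ℓ ↦ a ℓ mod p`)               : `ihbcTheta`.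

`ihbc_exists_killer` : if no non-zero point of `J₀(M)[p]` is a `θ`-eigenvector, then some `h` with
`θ h ≠ 0` kills all torsion points of `J₀(M)(ℚ̄)`.
-/
import Mathlib
import Fermat.Agent.Lib.Ihara.B.Cmp.Eigen
import Fermat.Agent.Lib.Delta.Wire.D0

set_option autoImplicit false
set_option linter.unusedSectionVars false
set_option linter.unusedVariables false
set_option linter.style.haveILetI false

namespace Fermat.Agent.Ihara

open Matrix MatrixGroups CongruenceSubgroup ModularCurve Fermat.Agent.T1 Fermat.Agent.Mazur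
  Fermat.Agent.Delta Fermat.Agent.S24Lib ModularCurve.Period AlgebraicCurve
open scoped TensorProduct

local notation "Qb" => AlgebraicClosure ℚ

noncomputable section

variable (M : ℕ) [NeZero M] (S : Set Nat.Primes) (hS : ∀ ℓ ∈ S, ¬ ((ℓ : Nat.Primes) : ℕ) ∣ M)

/-- `T_ℓ` (`ℓ ∈ S`) in the Hecke algebra of level `M` -/
def ihbcT0 (ℓ : ↥S) : CuspForm.heckeAlgebra M 2 (∅ : Set ℕ) :=
  CuspForm.heckeAlgebra.T ℓ.1.2 (hS ℓ.1 ℓ.2) (Set.notMem_empty _)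

/-- non-commutative polynomials in the `T_ℓ`, `ℓ ∈ S`, evaluated in the Hecke algebra -/
def ihbcTau : FreeAlgebra ℤ ↥S →ₐ[ℤ] CuspForm.heckeAlgebra M 2 (∅ : Set ℕ) :=
  FreeAlgebra.lift ℤ (ihbcT0 M S hS)

/-- ... acting on the lattice -/
def ihbcRhoL : FreeAlgebra ℤ ↥S →ₐ[ℤ] Module.End ℤ ↥(tdmL M) :=
  (tdmHecke M).toIntAlgHom.comp (ihbcTau M S hS)

/-- ... acting on `J₀(M)(ℚ̄)` -/
def ihbcRhoJ : FreeAlgebra ℤ ↥S →ₐ[ℤ] Module.End ℤ (JZero M) :=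
  FreeAlgebra.lift ℤ (fun ℓ : ↥S => heckeOperatorBar M ℓ.1)

/-- ... evaluated at the eigensystem `a` modulo `p` -/
def ihbcTheta (p : ℕ) (a : Nat.Primes → ℤ) : FreeAlgebra ℤ ↥S →ₐ[ℤ] ZMod p :=
  FreeAlgebra.lift ℤ (fun ℓ : ↥S => ((a ℓ.1 : ℤ) : ZMod p))

/-- ... evaluated at the eigensystem `a` -/
def ihbcThetaZ (a : Nat.Primes → ℤ) : FreeAlgebra ℤ ↥S →ₐ[ℤ] ℤ :=
  FreeAlgebra.lift ℤ (fun ℓ : ↥S => a ℓ.1)

theorem ihbcTau_ι (ℓ : ↥S) : ihbcTau M S hS (FreeAlgebra.ι ℤ ℓ) = ihbcT0 M S hS ℓ :=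
  FreeAlgebra.lift_ι_apply _ _

theorem ihbcRhoL_apply (h : FreeAlgebra ℤ ↥S) :
    ihbcRhoL M S hS h = tdmHecke M (ihbcTau M S hS h) := rfl

theorem ihbcRhoJ_ι (ℓ : ↥S) : ihbcRhoJ M S (FreeAlgebra.ι ℤ ℓ) = heckeOperatorBar M ℓ.1 :=
  FreeAlgebra.lift_ι_apply _ _

theorem ihbcTheta_ι (p : ℕ) (a : Nat.Primes → ℤ) (ℓ : ↥S) :
    ihbcTheta S p a (FreeAlgebra.ι ℤ ℓ) = ((a ℓ.1 : ℤ) : ZMod p) :=
  FreeAlgebra.lift_ι_apply _ _

theorem ihbcThetaZ_ι (a : Nat.Primes → ℤ) (ℓ : ↥S) :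
    ihbcThetaZ S a (FreeAlgebra.ι ℤ ℓ) = a ℓ.1 :=
  FreeAlgebra.lift_ι_apply _ _

/-- `θ = θ_ℤ mod p` -/
theorem ihbcTheta_eq (p : ℕ) (a : Nat.Primes → ℤ) (h : FreeAlgebra ℤ ↥S) :
    ihbcTheta S p a h = ((ihbcThetaZ S a h : ℤ) : ZMod p) := by
  have : ihbcTheta S p a = (Int.castRingHom (ZMod p)).toIntAlgHom.comp (ihbcThetaZ S a) := by
    apply FreeAlgebra.hom_ext
    funext ℓ
    simp only [Function.comp_apply, AlgHom.comp_apply, ihbcTheta_ι, ihbcThetaZ_ι]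
    rfl
  rw [this]
  rfl

/-! ### From eigenvectors modulo `p` in the lattice to eigenvectors in `J₀(M)[p]` -/

section Transfer

variable (p : ℕ) [hp : Fact p.Prime]

/-- an eigenvector modulo `p` in the lattice gives a non-zero eigenvector in `J₀(M)[p]` -/
theorem ihbc_eigen_transfer (a : Nat.Primes → ℤ) (v : ↥(tdmL M))
    (hv : ¬ ∃ w : ↥(tdmL M), v = (p : ℤ) • w)
    (heig : ∀ ℓ : ↥S, ∃ w : ↥(tdmL M),
      tdmHecke M (ihbcT0 M S hS ℓ) v - a ℓ.1 • v = (p : ℤ) • w) :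
    ∃ x : JZero M, x ≠ 0 ∧ p • x = 0 ∧ ∀ ℓ ∈ S, heckeOperatorBar M ℓ x = a ℓ • x := by
  refine ⟨mzeiKappa p M 1 (tdmCastL M ℤ_[p] v), ?_, ?_, ?_⟩
  · intro h0
    rw [mzeiKappa_eq_zero_iff] at h0
    exact hv (dlw_dvd_of_cast_dvd (N := M) (p := p) v h0)
  · have := mzeiKappa_tors p M 1 (tdmCastL M ℤ_[p] v)
    rwa [pow_one] at this
  · intro ℓ hℓ
    obtain ⟨w, hw⟩ := heig ⟨ℓ, hℓ⟩
    have h1 : mzeiKappa p M 1 (tdmCastL M ℤ_[p]
        (tdmHecke M (ihbcT0 M S hS ⟨ℓ, hℓ⟩) v - a ℓ • v)) = 0 := by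
      rw [hw, map_zsmul, ← Int.cast_smul_eq_zsmul ℤ_[p], Int.cast_natCast,
        dlw_kappa_p_smul]
    rw [map_sub, map_zsmul, dlw_cast_hecke, map_sub, map_zsmul, sub_eq_zero] at h1
    rw [← h1]
    exact (mzeiKappa_hecke p M ℓ.2 (hS ℓ hℓ) 1 _).symm

/-- the action on the lattice is commutative -/
theorem ihbcRhoL_comm (r s : FreeAlgebra ℤ ↥S) :
    ihbcRhoL M S hS r * ihbcRhoL M S hS s = ihbcRhoL M S hS s * ihbcRhoL M S hS r := by
  rw [ihbcRhoL_apply, ihbcRhoL_apply, ← map_mul (tdmHecke M), ← map_mul (tdmHecke M), mul_comm]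

theorem ihbcRhoL_sub_smul (ℓ : ↥S) (c : ℤ) (v : ↥(tdmL M)) :
    ihbcRhoL M S hS (FreeAlgebra.ι ℤ ℓ - c • (1 : FreeAlgebra ℤ ↥S)) v
      = tdmHecke M (ihbcT0 M S hS ℓ) v - c • v := by
  rw [map_sub, map_zsmul, map_one, LinearMap.sub_apply, LinearMap.smul_apply]
  rw [Module.End.one_apply]
  rw [ihbcRhoL_apply, ihbcTau_ι]

/-- the action on the lattice modulo `p` -/
def ihbcRhoV : FreeAlgebra ℤ ↥S →+* Module.End (ZMod p) (ZMod p ⊗[ℤ] ↥(tdmL M)) :=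
  ((Module.End.baseChangeHom ℤ (ZMod p) ↥(tdmL M) : Module.End ℤ ↥(tdmL M) →ₐ[ℤ] _) :
    Module.End ℤ ↥(tdmL M) →+* _).comp (ihbcRhoL M S hS : FreeAlgebra ℤ ↥S →+* _)

theorem ihbcRhoV_tmul (r : FreeAlgebra ℤ ↥S) (c : ZMod p) (v : ↥(tdmL M)) :
    ihbcRhoV M S hS p r (c ⊗ₜ[ℤ] v) = c ⊗ₜ[ℤ] (ihbcRhoL M S hS r v) := by
  show (ihbcRhoL M S hS r).baseChange (ZMod p) (c ⊗ₜ[ℤ] v) = _
  rw [LinearMap.baseChange_tmul]

/-- **step 1**: some `h₀` with `θ h₀ ≠ 0` maps the lattice into `p L` -/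
theorem ihbc_exists_kill_mod (a : Nat.Primes → ℤ)
    (h0 : ∀ x : JZero M, p • x = 0 → (∀ ℓ ∈ S, heckeOperatorBar M ℓ x = a ℓ • x) → x = 0) :
    ∃ h : FreeAlgebra ℤ ↥S, ihbcTheta S p a h ≠ 0 ∧
      ∀ v : ↥(tdmL M), ∃ w : ↥(tdmL M), ihbcRhoL M S hS h v = (p : ℤ) • w := by
  haveI : NeZero p := ⟨hp.out.ne_zero⟩
  haveI : Finite (ZMod p ⊗[ℤ] ↥(tdmL M)) := ihbc_tensor_finite p
  have hcomm : ∀ r s : FreeAlgebra ℤ ↥S,
      ihbcRhoV M S hS p r * ihbcRhoV M S hS p s = ihbcRhoV M S hS p s * ihbcRhoV M S hS p r := by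
    intro r s
    show ((Module.End.baseChangeHom ℤ (ZMod p) ↥(tdmL M)) (ihbcRhoL M S hS r))
      * ((Module.End.baseChangeHom ℤ (ZMod p) ↥(tdmL M)) (ihbcRhoL M S hS s))
      = ((Module.End.baseChangeHom ℤ (ZMod p) ↥(tdmL M)) (ihbcRhoL M S hS s))
      * ((Module.End.baseChangeHom ℤ (ZMod p) ↥(tdmL M)) (ihbcRhoL M S hS r))
    rw [← map_mul (Module.End.baseChangeHom ℤ (ZMod p) ↥(tdmL M)),
      ← map_mul (Module.End.baseChangeHom ℤ (ZMod p) ↥(tdmL M)), ihbcRhoL_comm]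
  have hno : ∀ x : ZMod p ⊗[ℤ] ↥(tdmL M),
      (∀ r : FreeAlgebra ℤ ↥S, (ihbcTheta S p a : FreeAlgebra ℤ ↥S →+* ZMod p) r = 0 →
        ihbcRhoV M S hS p r x = 0) → x = 0 := by
    intro x hx
    obtain ⟨v, rfl⟩ := ihbc_tensor_surj p x
    by_contra hne
    have hv : ¬ ∃ w : ↥(tdmL M), v = (p : ℤ) • w := fun hw =>
      hne ((ihbc_tmul_eq_zero_iff p v).mpr hw)
    have heig : ∀ ℓ : ↥S, ∃ w : ↥(tdmL M),
        tdmHecke M (ihbcT0 M S hS ℓ) v - a ℓ.1 • v = (p : ℤ) • w := by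
      intro ℓ
      have hθ0 : ihbcTheta S p a
          (FreeAlgebra.ι ℤ ℓ - (a ℓ.1) • (1 : FreeAlgebra ℤ ↥S)) = 0 := by
        rw [map_sub, ihbcTheta_ι, map_zsmul, map_one, zsmul_one, sub_self]
      have h1 := hx (FreeAlgebra.ι ℤ ℓ - (a ℓ.1) • (1 : FreeAlgebra ℤ ↥S)) hθ0
      rw [ihbcRhoV_tmul, ihbc_tmul_eq_zero_iff] at h1
      obtain ⟨w, hw⟩ := h1
      refine ⟨w, ?_⟩
      rw [← hw, ihbcRhoL_sub_smul]
    obtain ⟨y, hy0, hyp, hyeig⟩ := ihbc_eigen_transfer M S hS p a v hv heig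
    exact hy0 (h0 y hyp hyeig)
  obtain ⟨h, hh0, hθ⟩ := ihbc_exists_separating (ihbcRhoV M S hS p) hcomm
    (ihbcTheta S p a : FreeAlgebra ℤ ↥S →+* ZMod p) hno
  refine ⟨h, hθ, fun v => ?_⟩
  have h1 := congrArg (fun f : Module.End (ZMod p) (ZMod p ⊗[ℤ] ↥(tdmL M)) =>
    f ((1 : ZMod p) ⊗ₜ[ℤ] v)) hh0
  simp only [ihbcRhoV_tmul, LinearMap.zero_apply] at h1
  exact (ihbc_tmul_eq_zero_iff p _).mp h1

/-- **step 2**: some `h` with `θ h ≠ 0` kills the lattice -/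
theorem ihbc_exists_kill_lattice (a : Nat.Primes → ℤ)
    (h0 : ∀ x : JZero M, p • x = 0 → (∀ ℓ ∈ S, heckeOperatorBar M ℓ x = a ℓ • x) → x = 0) :
    ∃ h : FreeAlgebra ℤ ↥S, ihbcTheta S p a h ≠ 0 ∧ ihbcRhoL M S hS h = 0 := by
  obtain ⟨h₀, hθ, hdiv⟩ := ihbc_exists_kill_mod M S hS p a h0
  obtain ⟨P, n, hP, hPn⟩ := ihbc_exists_monic_kill p (ihbcRhoL M S hS h₀) hdiv
  refine ⟨Polynomial.aeval h₀ P, ?_, ?_⟩
  · rw [← Polynomial.aeval_algHom_apply]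
    have h1 : Polynomial.aeval (ihbcTheta S p a h₀) P
        = Polynomial.eval (ihbcTheta S p a h₀) (P.map (Int.castRingHom (ZMod p))) := by
      rw [Polynomial.eval_map, Polynomial.aeval_def]
      congr 1
    rw [h1, hPn, Polynomial.eval_pow, Polynomial.eval_X]
    exact pow_ne_zero n hθ
  · rw [← Polynomial.aeval_algHom_apply]
    exact hP

end Transfer

/-! ### Killing the torsion of `J₀(M)(ℚ̄)` -/

section Torsion

theorem ihbc_baseChange_algebraMap {L : Type*} [AddCommGroup L] (A : Type*) [CommRing A] (c : ℤ)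
    (y : A ⊗[ℤ] L) : (algebraMap ℤ (Module.End ℤ L) c).baseChange A y = c • y := by
  induction y using TensorProduct.induction_on with
  | zero => rw [map_zero, smul_zero]
  | tmul a v =>
    rw [LinearMap.baseChange_tmul, Module.algebraMap_end_apply, TensorProduct.tmul_smul]
  | add x y hx hy => rw [map_add, hx, hy, smul_add]

section Abs

variable {L : Type*} [AddCommGroup L] {A : Type*} [CommRing A] {T : Type*} [AddCommMonoid T]
  [Module A T] (e : A ⊗[ℤ] L ≃ₗ[A] T)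

theorem ihbc_conj_add (f g : Module.End ℤ L) (x : T) :
    e ((f + g).baseChange A (e.symm x))
      = e (f.baseChange A (e.symm x)) + e (g.baseChange A (e.symm x)) := by
  rw [LinearMap.baseChange_add, LinearMap.add_apply, map_add]

theorem ihbc_conj_mul (f g : Module.End ℤ L) (x : T) :
    e ((f * g).baseChange A (e.symm x))
      = e (f.baseChange A (e.symm (e (g.baseChange A (e.symm x))))) := by
  rw [Module.End.mul_eq_comp, LinearMap.baseChange_comp, LinearMap.comp_apply,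
    LinearEquiv.symm_apply_apply]

end Abs

theorem ihbc_heckeP_add (r : ℕ) [hr : Fact r.Prime] (s t : CuspForm.heckeAlgebra M 2 (∅ : Set ℕ))
    (x : ↥(parabolicHoms ℤ_[r] (Gamma0 M) ℤ_[r])) :
    tdmHeckeP r M (s + t) x = tdmHeckeP r M s x + tdmHeckeP r M t x := by
  rw [tdmHeckeP_apply, tdmHeckeP_apply, tdmHeckeP_apply, (tdmHecke M).map_add s t]
  exact ihbc_conj_add (tdmBC M ℤ_[r]) _ _ x

theorem ihbc_heckeP_mul (r : ℕ) [hr : Fact r.Prime] (s t : CuspForm.heckeAlgebra M 2 (∅ : Set ℕ))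
    (x : ↥(parabolicHoms ℤ_[r] (Gamma0 M) ℤ_[r])) :
    tdmHeckeP r M (s * t) x = tdmHeckeP r M s (tdmHeckeP r M t x) := by
  rw [tdmHeckeP_apply, tdmHeckeP_apply, tdmHeckeP_apply, (tdmHecke M).map_mul s t]
  exact ihbc_conj_mul (tdmBC M ℤ_[r]) _ _ x

/-- scalars act as scalars on the `r`-adic Tate module -/
theorem ihbc_heckeP_scalar (r : ℕ) [hr : Fact r.Prime] (c : ℤ)
    (x : ↥(parabolicHoms ℤ_[r] (Gamma0 M) ℤ_[r])) (t : CuspForm.heckeAlgebra M 2 (∅ : Set ℕ))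
    (ht : tdmHecke M t = algebraMap ℤ (Module.End ℤ ↥(tdmL M)) c) :
    tdmHeckeP r M t x = c • x := by
  rw [tdmHeckeP_apply, ht, ihbc_baseChange_algebraMap, map_zsmul, LinearEquiv.apply_symm_apply]

/-- the Kummer maps intertwine the Hecke actions, for non-commutative polynomials -/
theorem ihbc_kappa_rho (r : ℕ) [hr : Fact r.Prime] (k : ℕ) (h : FreeAlgebra ℤ ↥S)
    (x : ↥(parabolicHoms ℤ_[r] (Gamma0 M) ℤ_[r])) :
    ihbcRhoJ M S h (mzeiKappa r M k x)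
      = mzeiKappa r M k (tdmHeckeP r M (ihbcTau M S hS h) x) := by
  induction h using FreeAlgebra.induction generalizing x with
  | grade0 c =>
    have e0 : tdmHecke M (ihbcTau M S hS (algebraMap ℤ (FreeAlgebra ℤ ↥S) c))
        = algebraMap ℤ (Module.End ℤ ↥(tdmL M)) c := by
      rw [← ihbcRhoL_apply, AlgHom.commutes]
    rw [ihbc_heckeP_scalar M r c x _ e0, AlgHom.commutes, Module.algebraMap_end_apply, map_zsmul]
  | grade1 ℓ =>
    rw [ihbcRhoJ_ι, ihbcTau_ι]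
    exact (mzeiKappa_hecke r M ℓ.1.2 (hS ℓ.1 ℓ.2) k x).symm
  | mul a b ha hb =>
    rw [map_mul, map_mul, Module.End.mul_apply, ihbc_heckeP_mul]
    exact (congrArg (ihbcRhoJ M S a) (hb x)).trans (ha _)
  | add a b ha hb =>
    rw [map_add, map_add, LinearMap.add_apply, ihbc_heckeP_add,
      AddMonoidHom.map_add (mzeiKappa r M k)]
    exact congrArg₂ (· + ·) (ha x) (hb x)

/-- a polynomial killing the lattice kills the `r`-power torsion -/
theorem ihbc_kill_prime_pow (h : FreeAlgebra ℤ ↥S) (hL : ihbcRhoL M S hS h = 0)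
    (r : ℕ) (hr : r.Prime) (k : ℕ) (y : JZero M) (hy : r ^ k • y = 0) :
    ihbcRhoJ M S h y = 0 := by
  haveI : Fact r.Prime := ⟨hr⟩
  obtain ⟨x, rfl⟩ := mzeiKappa_surj r M k y hy
  rw [ihbc_kappa_rho M S hS r k h x]
  have h0 : tdmHecke M (ihbcTau M S hS h) = 0 := hL
  have h1 : tdmHeckeP r M (ihbcTau M S hS h) x = 0 := by
    rw [tdmHeckeP_apply, h0, LinearMap.baseChange_zero, LinearMap.zero_apply, map_zero]
  rw [h1, map_zero]

/-- a polynomial killing the lattice kills all torsion points -/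
theorem ihbc_kill_torsion (h : FreeAlgebra ℤ ↥S) (hL : ihbcRhoL M S hS h = 0)
    (n : ℕ) (hn : n ≠ 0) (y : JZero M) (hy : n • y = 0) : ihbcRhoJ M S h y = 0 := by
  induction n using Nat.recOnPosPrimePosCoprime generalizing y with
  | prime_pow r k hr hk => exact ihbc_kill_prime_pow M S hS h hL r hr k y hy
  | zero => exact absurd rfl hn
  | one =>
    rw [one_smul] at hy
    rw [hy, map_zero]
  | coprime a b ha hb hab iha ihb =>
    have ha0 : a ≠ 0 := by omega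
    have hb0 : b ≠ 0 := by omega
    -- Bezout
    have hgcd : Int.gcd (a : ℤ) (b : ℤ) = 1 := by
      rw [Int.gcd_natCast_natCast]; exact hab
    obtain ⟨u, v, huv⟩ : ∃ u v : ℤ, (a : ℤ) * u + (b : ℤ) * v = 1 := by
      have := Int.gcd_eq_gcd_ab (a : ℤ) (b : ℤ)
      rw [hgcd] at this
      exact ⟨_, _, by rw [← this]; rfl⟩
    have hy' : ((a : ℤ) * (b : ℤ)) • y = 0 := by
      rw [← Nat.cast_mul, natCast_zsmul]; exact hy
    have h1 : y = ((a : ℤ) * u) • y + ((b : ℤ) * v) • y := by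
      rw [← add_zsmul, huv, one_zsmul]
    rw [h1, map_add]
    have e1 : ihbcRhoJ M S h (((a : ℤ) * u) • y) = 0 := by
      apply ihb hb0
      rw [← natCast_zsmul, ← mul_zsmul']
      have : (a : ℤ) * u * (b : ℤ) = ((a : ℤ) * (b : ℤ)) * u := by ring
      rw [this, mul_zsmul', hy', zsmul_zero]
    have e2 : ihbcRhoJ M S h (((b : ℤ) * v) • y) = 0 := by
      apply iha ha0
      rw [← natCast_zsmul, ← mul_zsmul']
      have : (b : ℤ) * v * (a : ℤ) = ((a : ℤ) * (b : ℤ)) * v := by ring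
      rw [this, mul_zsmul', hy', zsmul_zero]
    rw [e1, e2, add_zero]

end Torsion

include hS in
/-- **(A): a Hecke operator killing the torsion of `J₀(M)(ℚ̄)` but not the eigensystem**: if no
non-zero point of `J₀(M)[p]` is an eigenvector of the `T_ℓ` (`ℓ ∈ S`) with eigenvalues `a ℓ`, then
some non-commutative polynomial `h` in the `T_ℓ` with `θ h ≠ 0` kills all torsion points. -/
theorem ihbc_exists_killer (p : ℕ) (hp : p.Prime) (a : Nat.Primes → ℤ)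
    (h0 : ∀ x : JZero M, p • x = 0 → (∀ ℓ ∈ S, heckeOperatorBar M ℓ x = a ℓ • x) → x = 0) :
    ∃ h : FreeAlgebra ℤ ↥S, ihbcTheta S p a h ≠ 0 ∧
      ∀ (n : ℕ), n ≠ 0 → ∀ y : JZero M, n • y = 0 → ihbcRhoJ M S h y = 0 := by
  haveI : Fact p.Prime := ⟨hp⟩
  obtain ⟨h, hθ, hL⟩ := ihbc_exists_kill_lattice M S hS p a h0
  exact ⟨h, hθ, fun n hn y hy => ihbc_kill_torsion M S hS h hL n hn y hy⟩

end

end Fermat.Agent.Ihara
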