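/-
IHARA track, package [B], sub-package (B3) (helper3), part 3: **`G_ℚ`-equivariance of the Hecke
operators on ALL points of `J₀(N)(ℚ̄)`** (`Delta.dlw_hecke_galois` had it for torsion points only),
and of the non-commutative polynomials `ihbcRhoJ`.
-/
import Mathlib
import Fermat.Agent.Lib.Ihara.B.Cmp.Killer
import Fermat.Agent.Lib.Delta.Wire.Push
import Fermat.Agent.Lib.Delta.Wire.PullDvd

set_option autoImplicit false
set_option linter.unusedSectionVars false
set_option linter.unusedVariables false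
set_option linter.style.haveILetI false

namespace Fermat.Agent.Ihara

open ModularCurve Fermat.Agent.T1 Fermat.Agent.T3 Fermat.Agent.Delta AlgebraicCurve
  Fermat.Agent.Curve Fermat.Agent.Alpha

local notation "Qb" => AlgebraicClosure ℚ
local notation "GQ" => (AlgebraicClosure ℚ ≃ₐ[ℚ] AlgebraicClosure ℚ)

noncomputable section

variable (N : ℕ) [NeZero N]

/-- `T_ℓ = α_* β^*` on `J₀(N)(ℚ̄)` -/
theorem ihbc_hecke_eq_push_pull (ℓ : ℕ) [NeZero ℓ] (x : JZero N) :
    heckeOperatorAlong Qb N ℓ x
      = dlwPushA N ℓ (t3pPullAlong (heckeBetaBar Qb N ℓ) (t3h_betaIntegral N ℓ)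
          (t3h_betaFundamental N ℓ) x) := by
  obtain ⟨D, rfl⟩ := Pic0.mk_surjective x
  rw [t3h_heckeOperatorAlong_mk]
  rfl

/-- **`T_ℓ` commutes with the Galois action on all points of `J₀(N)(ℚ̄)`** -/
theorem ihbc_hecke_galois (ℓ : Nat.Primes) (σ : GQ) (x : JZero N) :
    heckeOperatorBar N ℓ (σ • x) = σ • heckeOperatorBar N ℓ x := by
  haveI : NeZero (ℓ : ℕ) := ⟨ℓ.2.ne_zero⟩
  rw [heckeOperatorBar_apply, heckeOperatorBar_apply, ihbc_hecke_eq_push_pull,
    ihbc_hecke_eq_push_pull, ← dlwPushA_galois]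
  congr 1
  rw [galois_smul_pic0_def, galois_smul_pic0_def]
  exact t3pPullAlong_smul _ _ _ (dlw_beta_intertwines N ℓ σ) x

/-- non-commutative polynomials in the Hecke operators commute with the Galois action -/
theorem ihbcRhoJ_galois (S : Set Nat.Primes) (h : FreeAlgebra ℤ ↥S) (σ : GQ) (x : JZero N) :
    ihbcRhoJ N S h (σ • x) = σ • ihbcRhoJ N S h x := by
  induction h using FreeAlgebra.induction generalizing x with
  | grade0 c =>
    rw [AlgHom.commutes, Module.algebraMap_end_apply, Module.algebraMap_end_apply]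
    exact (map_zsmul (DistribSMul.toAddMonoidHom (JZero N) σ) c x).symm
  | grade1 ℓ =>
    rw [ihbcRhoJ_ι]
    exact ihbc_hecke_galois N ℓ.1 σ x
  | mul a b ha hb =>
    rw [map_mul, Module.End.mul_apply, Module.End.mul_apply, hb, ha]
  | add a b ha hb =>
    rw [map_add, LinearMap.add_apply, LinearMap.add_apply, ha, hb, smul_add]

end

end Fermat.Agent.Ihara
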