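/-
IHARA track, package [B], sub-package (B3) (helper3), part 4: **every point of `J₀(N)(ℚ̄)` has a
stabiliser of finite index in `G_ℚ`**, and is therefore fixed by an element of the decomposition
group at `𝔓` inducing a positive power of the Frobenius on the residue field.

* generic: `ihbc_stabPlace_finiteIndex` (a place at which a `G`-invariant non-zero function has a
  zero or a pole has a finite orbit), `ihbc_stabPic_finiteIndex`;
* `ihbc_exists_fixed_fun` : at every place of `F_N` some `G_ℚ`-invariant function vanishes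
  (`minpoly_ℚ(j(P))(j)` resp. `1/j`);
* `ihbc_stab_finiteIndex` : stabilisers of points of `J₀(N)(ℚ̄)` have finite index;
* `ihbc_exists_frob_pow_fixing`.
-/
import Mathlib
import Fermat.Agent.Lib.Ihara.B.Cmp.Galois
import Fermat.Agent.Lib.Curve.ResidueField
import Fermat.Agent.Lib.Helper6.FrobeniusExists
import Fermat.Agent.Lib.Alpha.Inv.LiftPlace

set_option autoImplicit false
set_option linter.unusedSectionVars false
set_option linter.unusedVariables false
set_option linter.style.haveILetI false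

namespace Fermat.Agent.Ihara

open ModularCurve Fermat.Agent.T1 Fermat.Agent.T3 Fermat.Agent.Delta AlgebraicCurve
  Fermat.Agent.Curve Fermat.Agent.Alpha Fermat.Agent.Curve.PlaceAux Fermat.Agent.TW

local notation "Qb" => AlgebraicClosure ℚ
local notation "GQ" => (AlgebraicClosure ℚ ≃ₐ[ℚ] AlgebraicClosure ℚ)

noncomputable section

section Generic

variable {K F : Type*} [Field K] [Field F] [Algebra K F] [HasPrincipalDivisors K F]
  {G : Type*} [Group G] (ρ : G →* SemilinearAut K F)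

/-- the stabiliser in `G` of a place -/
def ihbcStabPlace (P : Place K F) : Subgroup G :=
  (MulAction.stabilizer (SemilinearAut K F) P).comap ρ

theorem mem_ihbcStabPlace {P : Place K F} {σ : G} : σ ∈ ihbcStabPlace ρ P ↔ ρ σ • P = P :=
  Iff.rfl

/-- the set of zeros and poles of a non-zero function is finite -/
theorem ihbc_finite_ord_ne_zero {g : F} (hg : g ≠ 0) : {P : Place K F | P.ord g ≠ 0}.Finite := by
  obtain ⟨D, hD, -⟩ := HasPrincipalDivisors.exists_divisor (K := K) g hg
  refine D.support.finite_toSet.subset ?_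
  intro P hP
  rw [Finset.mem_coe, Finsupp.mem_support_iff, hD P]
  exact hP

/-- a place at which a `G`-invariant non-zero function has a zero or a pole has a stabiliser of finite
index -/
theorem ihbc_stabPlace_finiteIndex (P : Place K F) (g : F) (hg0 : g ≠ 0)
    (hgfix : ∀ σ : G, ρ σ • g = g) (hP : P.ord g ≠ 0) : (ihbcStabPlace ρ P).FiniteIndex := by
  have hfin := ihbc_finite_ord_ne_zero (K := K) hg0
  haveI : Finite ↥{P : Place K F | P.ord g ≠ 0} := hfin
  have hmem : ∀ σ : G, ρ σ • P ∈ {P : Place K F | P.ord g ≠ 0} := by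
    intro σ
    show (ρ σ • P).ord g ≠ 0
    have h1 := SemilinearAut.ord_smul (ρ σ) P g
    rw [hgfix σ] at h1
    rw [h1]
    exact hP
  let f : G ⧸ ihbcStabPlace ρ P → ↥{P : Place K F | P.ord g ≠ 0} :=
    Quotient.lift (fun σ : G => (⟨ρ σ • P, hmem σ⟩ : ↥{P : Place K F | P.ord g ≠ 0})) (by
      intro σ τ h
      have h1 : σ⁻¹ * τ ∈ ihbcStabPlace ρ P := QuotientGroup.leftRel_apply.mp h
      rw [mem_ihbcStabPlace, map_mul, map_inv, mul_smul, inv_smul_eq_iff] at h1
      exact Subtype.ext h1.symm)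
  have hinj : Function.Injective f := by
    intro a b
    induction a using QuotientGroup.induction_on with
    | H σ =>
    induction b using QuotientGroup.induction_on with
    | H τ =>
    intro h
    have h1 : ρ σ • P = ρ τ • P := congrArg Subtype.val h
    apply QuotientGroup.eq.mpr
    rw [mem_ihbcStabPlace, map_mul, map_inv, mul_smul, inv_smul_eq_iff]
    exact h1.symm
  haveI : Finite (G ⧸ ihbcStabPlace ρ P) := Finite.of_injective f hinj
  exact Subgroup.finiteIndex_of_finite_quotient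

/-- if every place has a stabiliser of finite index then so has every divisor class -/
theorem ihbc_stabPic_finiteIndex (hpl : ∀ P : Place K F, (ihbcStabPlace ρ P).FiniteIndex)
    (x : Pic0 K F) :
    ∃ U : Subgroup G, U.FiniteIndex ∧ ∀ σ ∈ U, ρ σ • x = x := by
  classical
  obtain ⟨D, rfl⟩ := Pic0.mk_surjective x
  refine ⟨⨅ P ∈ (D : Divisor K F).support, ihbcStabPlace ρ P,
    Subgroup.finiteIndex_iInf' _ (fun P _ => hpl P), ?_⟩
  intro σ hσ
  rw [SemilinearAut.pic0_smul_mk]
  apply congrArg Pic0.mk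
  apply Subtype.ext
  rw [SemilinearAut.coe_degZeroSMulHom]
  have hfix : ∀ P ∈ (D : Divisor K F).support, ρ σ • P = P := by
    intro P hP
    have h1 := (Subgroup.mem_iInf.mp hσ) P
    exact (mem_ihbcStabPlace ρ).mp ((Subgroup.mem_iInf.mp h1) hP)
  rw [SemilinearAut.divisor_smul_def]
  conv_rhs => rw [← Finsupp.mapDomain_id (v := (D : Divisor K F))]
  exact Finsupp.mapDomain_congr (fun P hP => hfix P hP)

end Generic

section Modular

variable (N : ℕ) [NeZero N]

/-- the polynomial `minpoly_ℚ(c)` evaluated at `j` -/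
def ihbcMinJ (c : Qb) : ↥(modularFunctionFieldBar N) :=
  (minpoly ℚ c).eval₂ ((algebraMap Qb ↥(modularFunctionFieldBar N)).comp (algebraMap ℚ Qb)) (tbJ N)

theorem ihbcMinJ_eq_aeval (c : Qb) :
    ihbcMinJ N c = Polynomial.aeval (tbJ N) ((minpoly ℚ c).map (algebraMap ℚ Qb)) := by
  rw [ihbcMinJ, Polynomial.aeval_def, Polynomial.eval₂_map]

theorem ihbcMinJ_smul (c : Qb) (σ : GQ) :
    arithmeticGalois (modularFunctionFieldFull N) σ • ihbcMinJ N c = ihbcMinJ N c := by
  have h1 := Polynomial.hom_eval₂ (minpoly ℚ c)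
    ((algebraMap Qb ↥(modularFunctionFieldBar N)).comp (algebraMap ℚ Qb))
    (MulSemiringAction.toRingHom (SemilinearAut Qb ↥(modularFunctionFieldBar N))
      ↥(modularFunctionFieldBar N) (arithmeticGalois (modularFunctionFieldFull N) σ)) (tbJ N)
  have h2 : (MulSemiringAction.toRingHom (SemilinearAut Qb ↥(modularFunctionFieldBar N))
      ↥(modularFunctionFieldBar N) (arithmeticGalois (modularFunctionFieldFull N) σ)).comp
      ((algebraMap Qb ↥(modularFunctionFieldBar N)).comp (algebraMap ℚ Qb))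
      = (algebraMap Qb ↥(modularFunctionFieldBar N)).comp (algebraMap ℚ Qb) :=
    Subsingleton.elim _ _
  rw [h2] at h1
  have h3 : (MulSemiringAction.toRingHom (SemilinearAut Qb ↥(modularFunctionFieldBar N))
      ↥(modularFunctionFieldBar N) (arithmeticGalois (modularFunctionFieldFull N) σ)) (tbJ N)
      = tbJ N := alpi_smul_tbJ N σ
  rw [h3] at h1
  exact h1

theorem ihbcMinJ_ne_zero (c : Qb) : ihbcMinJ N c ≠ 0 := by
  have hc : IsIntegral ℚ c := (AlgebraicClosure.isAlgebraic ℚ).isIntegral.isIntegral c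
  have htr : Transcendental Qb (tbJ N) := by
    have h1 : tbJ N = Fermat.Agent.S24Lib.jBar N := Subtype.ext rfl
    rw [h1]
    exact (Fermat.Agent.S24Lib.isFunctionFieldGen_jBar N).transcendental
  rw [ihbcMinJ_eq_aeval]
  intro h0
  apply htr
  refine ⟨(minpoly ℚ c).map (algebraMap ℚ Qb), ?_, h0⟩
  exact (Polynomial.map_ne_zero_iff (algebraMap ℚ Qb).injective).mpr (minpoly.ne_zero hc)

/-- `minpoly_ℚ(c)(j)` vanishes at the places where `j = c` -/
theorem ihbcMinJ_ordGE (P : Place Qb ↥(modularFunctionFieldBar N)) (c : Qb)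
    (hc : OrdGE P (tbJ N - algebraMap Qb _ c) 1) : OrdGE P (ihbcMinJ N c) 1 := by
  have hci : IsIntegral ℚ c := (AlgebraicClosure.isAlgebraic ℚ).isIntegral.isIntegral c
  have hroot : ((minpoly ℚ c).map (algebraMap ℚ Qb)).IsRoot c := by
    rw [Polynomial.IsRoot, Polynomial.eval_map, ← Polynomial.aeval_def]
    exact minpoly.aeval ℚ c
  obtain ⟨m₁, hm₁⟩ := Polynomial.dvd_iff_isRoot.mpr hroot
  have hjmem : tbJ N ∈ P.toValuationSubring := by
    have h1 : tbJ N = (tbJ N - algebraMap Qb _ c) + algebraMap Qb _ c := by ring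
    rw [h1]
    exact add_mem ((ordGE_zero_iff_mem P).mp (OrdGE.mono P hc (by norm_num)))
      (PlaceAux.algebraMap_mem P c)
  have h2 : Polynomial.aeval (tbJ N) m₁ ∈ P.toValuationSubring := by
    rw [Polynomial.aeval_eq_sum_range]
    refine Subring.sum_mem _ (fun i _ => ?_)
    rw [Algebra.smul_def]
    exact Subring.mul_mem _ (PlaceAux.algebraMap_mem P _) (Subring.pow_mem _ hjmem i)
  have h4 : ihbcMinJ N c = (tbJ N - algebraMap Qb _ c) * Polynomial.aeval (tbJ N) m₁ := by
    rw [ihbcMinJ_eq_aeval, hm₁, map_mul, map_sub, Polynomial.aeval_X, Polynomial.aeval_C]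
  rw [h4]
  have h3 := OrdGE.mul P hc ((ordGE_zero_iff_mem P).mpr h2)
  rwa [add_zero] at h3

/-- **at every place of `F_N` some `G_ℚ`-invariant non-zero function has a zero** -/
theorem ihbc_exists_fixed_fun (P : Place Qb ↥(modularFunctionFieldBar N)) :
    ∃ g : ↥(modularFunctionFieldBar N), g ≠ 0 ∧
      (∀ σ : GQ, arithmeticGalois (modularFunctionFieldFull N) σ • g = g) ∧ P.ord g ≠ 0 := by
  have hgen : IsFunctionFieldGen Qb ↥(modularFunctionFieldBar N) (tbJ N) := by
    have h1 : tbJ N = Fermat.Agent.S24Lib.jBar N := Subtype.ext rfl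
    rw [h1]
    exact Fermat.Agent.S24Lib.isFunctionFieldGen_jBar N
  have hj0 : tbJ N ≠ 0 := fun h => hgen.transcendental (by
    rw [h]
    exact ⟨Polynomial.X, Polynomial.X_ne_zero, by simp⟩)
  by_cases hj : tbJ N ∈ P.toValuationSubring
  · obtain ⟨c, hc⟩ := exists_const_ordGE_one hgen P hj
    refine ⟨ihbcMinJ N c, ihbcMinJ_ne_zero N c, ihbcMinJ_smul N c, ?_⟩
    have h1 := ihbcMinJ_ordGE N P c hc
    rcases (ordGE_iff P).mp h1 with h0 | h0
    · exact absurd h0 (ihbcMinJ_ne_zero N c)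
    · omega
  · refine ⟨(tbJ N)⁻¹, inv_ne_zero hj0, fun σ => ?_, ?_⟩
    · rw [smul_inv'', alpi_smul_tbJ]
    · have h1 : ¬ (0 ≤ P.ord (tbJ N)) := fun h => hj (mem_of_ord_nonneg P h)
      have h2 : P.ord ((tbJ N)⁻¹) = - P.ord (tbJ N) := P.ord_inv (tbJ N)
      omega

/-- **stabilisers of points of `J₀(N)(ℚ̄)` have finite index in `G_ℚ`** -/
theorem ihbc_stab_finiteIndex (x : JZero N) :
    ∃ U : Subgroup GQ, U.FiniteIndex ∧ ∀ σ ∈ U, σ • x = x := by
  obtain ⟨U, hU, hfix⟩ := ihbc_stabPic_finiteIndex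
    (arithmeticGalois (L := Qb) (modularFunctionFieldFull N)) (fun P => by
      obtain ⟨g, hg0, hgfix, hP⟩ := ihbc_exists_fixed_fun N P
      exact ihbc_stabPlace_finiteIndex _ P g hg0 hgfix hP) x
  exact ⟨U, hU, fun σ hσ => by rw [galois_smul_pic0_def]; exact hfix σ hσ⟩

/-- a positive power of a Frobenius element at `𝔓` lies in any subgroup of finite index -/
theorem ihbc_exists_frob_pow_mem (𝔓 : FFPlace) (U : Subgroup GQ) (hU : U.FiniteIndex) :
    ∃ (σ : GQ) (f : ℕ), 𝔓.P.IsFrobeniusAt σ 𝔓.p ∧ 0 < f ∧ σ ^ f ∈ U := by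
  obtain ⟨σ, hσ⟩ := Fermat.Agent.Lib.Helper6.exists_isFrobeniusAt 𝔓.P 𝔓.hp 𝔓.hP
  obtain ⟨f, hf0, -, hfU⟩ := Subgroup.exists_pow_mem_of_index_ne_zero hU.index_ne_zero σ
  exact ⟨σ, f, hσ, hf0, hfU⟩

/-- every point of `J₀(N)(ℚ̄)` is fixed by an element of the decomposition group at `𝔓` which acts
on the reduced function fields as a positive power of the Frobenius -/
theorem ihbc_exists_frob_pow_fixing (𝔓 : FFPlace) (x : JZero N) :
    ∃ (g : 𝔓.P.decompositionSubgroup ℚ) (f : ℕ), 0 < f ∧ (g : GQ) • x = x ∧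
      ∀ (K : ℕ) [NeZero K], t3bBar 𝔓 K g = (t3bPhi 𝔓 K) ^ f := by
  obtain ⟨U, hU, hfix⟩ := ihbc_stab_finiteIndex N x
  obtain ⟨σ, f, hσ, hf0, hfU⟩ := ihbc_exists_frob_pow_mem 𝔓 U hU
  have hmem : σ ^ f ∈ 𝔓.P.decompositionSubgroup ℚ :=
    Subgroup.pow_mem _ hσ.mem_decompositionSubgroup f
  have hpow : (⟨σ ^ f, hmem⟩ : 𝔓.P.decompositionSubgroup ℚ) =
      (⟨σ, hσ.mem_decompositionSubgroup⟩ : 𝔓.P.decompositionSubgroup ℚ) ^ f := Subtype.ext rfl
  refine ⟨⟨σ ^ f, hmem⟩, f, hf0, hfix _ hfU, ?_⟩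
  intro K _
  rw [hpow, MonoidHom.map_pow (t3bBar 𝔓 K), t3bBar_of_frobenius 𝔓 K hσ]

end Modular

end

end Fermat.Agent.Ihara
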