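/-
IHARA track, package [B], sub-package (B3) (helper3), part 5: **the characteristic-zero side**.

If a polynomial `h ∈ FreeAlgebra ℤ S` in the Hecke operators kills all torsion points of
`J₀(M)(ℚ̄)` then, for every `z ∈ J₀(M)(ℚ̄)`, the reduction at a rigid level `K` (`M ∣ K`) of
`h(π^* z)` vanishes — provided the classes of the reduced curve fixed by a power of the Frobenius
are finite in number (`ihbc_pull_zero`).

* `ihbc_kill_of_finite` : the abstract argument (divide by the order of the finite target group);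
* `ihbcRhoJ_pull`        : `h(π^* z) = π^* (h z)` for polynomials in `T_ℓ`, `ℓ ∤ K`;
* `ihbc_pull_zero`.
-/
import Mathlib
import Fermat.Agent.Lib.Ihara.B.Cmp.Stab
import Fermat.Agent.Lib.Mazur.K.Main
import Fermat.Agent.Lib.Delta.Wire.PullDvd
import Fermat.Agent.Lib.T3.Gal.Pic
import Fermat.Agent.Lib.T3.Red.Modular

set_option autoImplicit false
set_option linter.unusedSectionVars false
set_option linter.unusedVariables false
set_option linter.style.haveILetI false

namespace Fermat.Agent.Ihara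

open ModularCurve Fermat.Agent.T1 Fermat.Agent.T3 Fermat.Agent.Delta AlgebraicCurve
  Fermat.Agent.Curve Fermat.Agent.TW

local notation "Qb" => AlgebraicClosure ℚ
local notation "GQ" => (AlgebraicClosure ℚ ≃ₐ[ℚ] AlgebraicClosure ℚ)

noncomputable section

/-- **the abstract argument**: an equivariant endomorphism `H` of a divisible group `J` killing the
torsion is killed by any homomorphism `R` which maps the points fixed by `g` into a finite
subgroup, at every point fixed by `g`. -/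
theorem ihbc_kill_of_finite {G J B : Type*} [Group G] [AddCommGroup J] [DistribMulAction G J]
    [AddCommGroup B] (hdiv : ∀ m : ℕ, m ≠ 0 → ∀ x : J, ∃ z : J, m • z = x)
    (H : J →+ J) (hG : ∀ (g : G) (x : J), H (g • x) = g • H x)
    (htors : ∀ n : ℕ, n ≠ 0 → ∀ y : J, n • y = 0 → H y = 0)
    (R : J →+ B) (B₀ : AddSubgroup B) [Finite B₀] (x : J) (g : G) (hgx : g • x = x)
    (hB : ∀ w : J, g • w = w → R w ∈ B₀) : R (H x) = 0 := by
  have hn : Nat.card B₀ ≠ 0 := Nat.card_pos.ne'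
  obtain ⟨z, hz⟩ := hdiv _ hn x
  have h1 : H (g • z - z) = 0 := by
    refine htors _ hn _ ?_
    rw [smul_sub, ← smul_comm g (Nat.card ↥B₀) z, hz, hgx, sub_self]
  have h2 : g • H z = H z := by
    rw [← hG, ← sub_eq_zero, ← map_sub]
    exact h1
  have h3 : R (H z) ∈ B₀ := hB _ h2
  have h4 : Nat.card ↥B₀ • (⟨R (H z), h3⟩ : ↥B₀) = 0 := card_nsmul_eq_zero'
  have h5 : Nat.card ↥B₀ • R (H z) = 0 := by
    have := congrArg (Subtype.val) h4
    rwa [AddSubgroup.coe_nsmul, AddSubgroup.coe_zero] at this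
  rw [← hz, map_nsmul, map_nsmul]
  exact h5

section Modular

variable {M K : ℕ} [NeZero M] [NeZero K]

/-- polynomials in the `T_ℓ`, `ℓ ∤ K`, commute with the pull-back `J₀(M) → J₀(K)` -/
theorem ihbcRhoJ_pull (hMK : M ∣ K) (S : Set Nat.Primes) (hS : ∀ ℓ ∈ S, ¬ (ℓ : ℕ) ∣ K)
    (h : FreeAlgebra ℤ ↥S) (z : JZero M) :
    ihbcRhoJ K S h (dlwPullDvd hMK z) = dlwPullDvd hMK (ihbcRhoJ M S h z) := by
  induction h using FreeAlgebra.induction generalizing z with
  | grade0 c =>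
    rw [AlgHom.commutes, AlgHom.commutes, Module.algebraMap_end_apply,
      Module.algebraMap_end_apply, map_zsmul]
  | grade1 ℓ =>
    rw [ihbcRhoJ_ι, ihbcRhoJ_ι]
    exact (dlwPullDvd_hecke hMK ℓ.1.2 (hS ℓ.1 ℓ.2) z).symm
  | mul a b ha hb =>
    rw [map_mul, map_mul, Module.End.mul_apply, Module.End.mul_apply, hb, ha]
  | add a b ha hb =>
    rw [map_add, map_add, LinearMap.add_apply, LinearMap.add_apply, ha, hb, map_add]

/-- the classes of the reduced curve at level `K` which are fixed by the `f`-th power of the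
Frobenius -/
def ihbcFixed (𝔓 : FFPlace) (K : ℕ) [NeZero K] (f : ℕ) :
    AddSubgroup (Pic0 (IsLocalRing.ResidueField ↥𝔓.P) ↥(tbBarF 𝔓 K)) where
  carrier := {c | (t3bPhi 𝔓 K) ^ f • c = c}
  zero_mem' := smul_zero _
  add_mem' := fun {a b} ha hb => by
    rw [Set.mem_setOf_eq] at ha hb ⊢
    rw [smul_add, ha, hb]
  neg_mem' := fun {a} ha => by
    rw [Set.mem_setOf_eq] at ha ⊢
    rw [smul_neg, ha]

/-- **(1) of (B3)**: a polynomial in the Hecke operators which kills the torsion of `J₀(M)(ℚ̄)`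
kills, after reduction at the rigid level `K`, every class pulled back from level `M`. -/
theorem ihbc_pull_zero (𝔓 : FFPlace) (hMK : M ∣ K) (h49 : 4 ∣ K ∨ 9 ∣ K) (hK : ¬ 𝔓.p ∣ K)
    (S : Set Nat.Primes) (hS : ∀ ℓ ∈ S, ¬ (ℓ : ℕ) ∣ K)
    (hfin : ∀ f : ℕ, 0 < f →
      {c : Pic0 (IsLocalRing.ResidueField ↥𝔓.P) ↥(tbBarF 𝔓 K) | (t3bPhi 𝔓 K) ^ f • c = c}.Finite)
    (h : FreeAlgebra ℤ ↥S)
    (hkill : ∀ n : ℕ, n ≠ 0 → ∀ y : JZero M, n • y = 0 → ihbcRhoJ M S h y = 0)
    (z : JZero M) :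
    t3bRed (t3aOK 𝔓 K hK) (t3a_good_modular 𝔓 K h49 hK)
      (ihbcRhoJ K S h (dlwPullDvd hMK z)) = 0 := by
  rw [ihbcRhoJ_pull hMK S hS h z]
  obtain ⟨g, f, hf0, hgz, hbar⟩ := ihbc_exists_frob_pow_fixing M 𝔓 z
  haveI : Finite ↥(ihbcFixed 𝔓 K f) := (hfin f hf0).to_subtype
  have key := ihbc_kill_of_finite (G := GQ) (J := JZero M)
    (fun m hm x => Fermat.Agent.Mazur.mzk_divisible M hm x)
    ((ihbcRhoJ M S h : Module.End ℤ (JZero M)).toAddMonoidHom)
    (fun σ x => ihbcRhoJ_galois M S h σ x)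
    (fun n hn y hy => hkill n hn y hy)
    ((t3bRed (t3aOK 𝔓 K hK) (t3a_good_modular 𝔓 K h49 hK)).comp (dlwPullDvd hMK))
    (ihbcFixed 𝔓 K f) z (g : GQ) hgz
    (fun w hw => by
      show (t3bPhi 𝔓 K) ^ f • _ = _
      rw [← hbar K, AddMonoidHom.comp_apply, ← t3bRed_decomp, ← dlwPullDvd_galois, hw])
  exact key

end Modular

end

end Fermat.Agent.Ihara
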