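/-
IHARA track, package [B], sub-package (B3) (helper3), part 6: **the Hecke operators on the classes of
the reduced curve** at a rigid level `K` (`4 ∣ K` or `9 ∣ K`, `𝔓.p ∤ K ℓ`, `ℓ ∤ K` prime).

* `ihbcTBar 𝔓 K ℓ … : Pic⁰(F̄_K) →+ Pic⁰(F̄_K)`, the class map of the correspondence `ᾱ_* β̄^*`;
* `ihbc_red_hecke`   : `R (T_ℓ y) = T̃_ℓ (R y)` for ALL `y ∈ J₀(K)(ℚ̄)` (from the Mazur track's
  `mzr5_hecke_red`);
* `ihbc_corr_class`  : (abstract) a correspondence `ψ_* φ^*` maps the Kummer class `[div y / m]` to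
  the Kummer class of `N_ψ (φ y)`;
* `ihbcTBar_class`   : `T̃_ℓ [div ȳ / m] = [div (tkrTilde ℓ ȳ) / m]` (through `dlh_norm_beta`).
-/
import Mathlib
import Fermat.Agent.Lib.Mazur.Red.R5.Main
import Fermat.Agent.Lib.Mazur.Red.R5.NormSep
import Fermat.Agent.Lib.Alpha.Fin.Finite
import Fermat.Agent.Lib.T3.Gal.Pic

set_option autoImplicit false
set_option linter.unusedSectionVars false
set_option linter.unusedVariables false
set_option linter.style.haveILetI false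
set_option synthInstance.maxHeartbeats 400000

namespace Fermat.Agent.Ihara

open ModularCurve Fermat.Agent.T1 Fermat.Agent.T3 Fermat.Agent.Delta AlgebraicCurve
  Fermat.Agent.Curve Fermat.Agent.TW Fermat.Agent.Alpha Fermat.Agent.Mazur HahnSeries

local notation "Qb" => AlgebraicClosure ℚ

noncomputable section

/-! ### Correspondences and Kummer classes -/

section Abs

variable {k E E' : Type*} [Field k] [Field E] [Field E'] [Algebra k E] [Algebra k E']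
  [HasPrincipalDivisors k E] [HasPrincipalDivisors k E']
  (φ ψ : E →ₐ[k] E') (hφ : φ.toRingHom.IsIntegral) (hψ : ψ.toRingHom.IsIntegral)
  (hfin : FiniteAlong k ψ) (hN : NormFormulaAlong k ψ hfin)

/-- the norm along a homomorphism of fields -/
def ihbcNormAlong (f : E') : E :=
  letI := algebraAlong ψ
  Algebra.norm E f

include hN in
/-- `ψ_* φ^* div y = div N_ψ (φ y)` -/
theorem ihbc_corr_div (y : Eˣ) (v : Place k E) :
    Divisor.correspondence φ ψ hφ hψ (alpfDiv (K := k) y) v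
      = v.ord (ihbcNormAlong ψ (φ (y : E))) := by
  letI := algebraAlong ψ
  haveI := isScalarTower_along ψ
  haveI := isIntegral_along ψ hψ
  haveI : Module.Finite E E' := hfin
  have hN' : Divisor.PushforwardNormFormula k E E' := hN
  have hy0 : φ (y : E) ≠ 0 := (map_ne_zero φ).mpr y.ne_zero
  exact hN' (φ (y : E)) hy0 (Divisor.pullbackAlong φ hφ (alpfDiv (K := k) y))
    (fun w => by rw [Divisor.pullbackAlong_apply, alpfDiv_apply, Place.ord_restrictAlong φ hφ]) v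

include hN in
theorem ihbc_corr_divQuot {m : ℕ} (y : Eˣ) (hy : ∀ v : Place k E, (m : ℤ) ∣ v.ord (y : E))
    (v : Place k E) :
    (m : ℤ) * Divisor.correspondence φ ψ hφ hψ (alpfDivQuot (K := k) m y) v
      = v.ord (ihbcNormAlong ψ (φ (y : E))) := by
  rw [← ihbc_corr_div φ ψ hφ hψ hfin hN y v, ← alpf_smul_divQuot hy, map_zsmul,
    Finsupp.smul_apply, smul_eq_mul]

/-- **a correspondence maps Kummer classes to Kummer classes, through the norm** -/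
theorem ihbc_corr_class (hFI : FundamentalIdentityAlong k φ hφ) {m : ℕ} (hm : m ≠ 0) (y : Eˣ)
    (hy : ∀ v : Place k E, (m : ℤ) ∣ v.ord (y : E)) (y' : Eˣ)
    (hy' : (y' : E) = ihbcNormAlong ψ (φ (y : E))) :
    ∃ h' : ∀ v : Place k E, (m : ℤ) ∣ v.ord (y' : E),
      Pic0.correspondence φ ψ hφ hψ hFI hfin hN (alpfClass hm y hy) = alpfClass hm y' h' := by
  have hm' : (m : ℤ) ≠ 0 := by exact_mod_cast hm
  have h' : ∀ v : Place k E, (m : ℤ) ∣ v.ord (y' : E) := fun v =>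
    ⟨_, by rw [hy', ← ihbc_corr_divQuot φ ψ hφ hψ hfin hN y hy v]⟩
  refine ⟨h', ?_⟩
  unfold alpfClass
  rw [Pic0.correspondence_mk]
  refine congrArg Pic0.mk (Subtype.ext (Finsupp.ext fun v => ?_))
  rw [Pic0.coe_degZeroCorrespondence]
  show Divisor.correspondence φ ψ hφ hψ (alpfDivQuot (K := k) m y) v
    = alpfDivQuot (K := k) m y' v
  rw [alpfDivQuot_apply, hy', ← ihbc_corr_divQuot φ ψ hφ hψ hfin hN y hy v,
    Int.mul_ediv_cancel_left _ hm']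

omit [HasPrincipalDivisors k E'] in
/-- the Kummer class of `c · y ^ a · u ^ m` is `a` times the Kummer class of `y` -/
theorem ihbc_class_eq_zsmul {m : ℕ} (hm : m ≠ 0) (y y' u : Eˣ) (c : k) (hc : c ≠ 0) (a : ℤ)
    (hy : ∀ v : Place k E, (m : ℤ) ∣ v.ord (y : E))
    (hy' : ∀ v : Place k E, (m : ℤ) ∣ v.ord (y' : E))
    (h : (y' : E) = algebraMap k E c * ((y ^ a * u ^ m : Eˣ) : E)) :
    alpfClass hm y' hy' = a • alpfClass hm y hy := by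
  have hm' : (m : ℤ) ≠ 0 := by exact_mod_cast hm
  have hc0 : algebraMap k E c ≠ 0 := (map_ne_zero (algebraMap k E)).mpr hc
  have hord : ∀ v : Place k E, v.ord (y' : E) = a * v.ord (y : E) + (m : ℤ) * v.ord (u : E) := by
    intro v
    rw [h, v.ord_mul hc0 (Units.ne_zero _), Fermat.Agent.Curve.PlaceAux.ord_algebraMap, zero_add,
      Units.val_mul, v.ord_mul (Units.ne_zero _) (Units.ne_zero _), Units.val_zpow_eq_zpow_val,
      v.ord_zpow, Units.val_pow_eq_pow_val, ← zpow_natCast, v.ord_zpow]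
  unfold alpfClass
  have h1 : a • (Pic0.mk ⟨alpfDivQuot (K := k) m y, alpfDivQuot_degree hm hy⟩ : Pic0 k E)
      = Pic0.mk (a • ⟨alpfDivQuot (K := k) m y, alpfDivQuot_degree hm hy⟩) := by
    unfold Pic0.mk
    exact (QuotientAddGroup.mk_zsmul _ _ a).symm
  rw [h1, ← sub_eq_zero]
  unfold Pic0.mk
  rw [← QuotientAddGroup.mk_sub, QuotientAddGroup.eq_zero_iff, AddSubgroup.mem_addSubgroupOf]
  refine ⟨(u : E), u.ne_zero, fun v => ?_⟩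
  show (alpfDivQuot (K := k) m y' - a • alpfDivQuot (K := k) m y) v = _
  rw [Finsupp.sub_apply, Finsupp.smul_apply, alpfDivQuot_apply, alpfDivQuot_apply, hord v,
    smul_eq_mul]
  obtain ⟨t, ht⟩ := hy v
  rw [ht, Int.mul_ediv_cancel_left _ hm', show a * ((m : ℤ) * t) + (m : ℤ) * v.ord (u : E)
    = (m : ℤ) * (a * t + v.ord (u : E)) by ring, Int.mul_ediv_cancel_left _ hm']
  ring

end Abs

/-! ### The modular instance -/

section Modular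

attribute [local instance 5000] dlhAlgK

variable (𝔓 : FFPlace) (K ℓ : ℕ) [NeZero K] [NeZero ℓ] (h49 : 4 ∣ K ∨ 9 ∣ K) (hK : ¬ 𝔓.p ∣ K)
  (hℓ : ℓ.Prime) (hℓK : ¬ ℓ ∣ K) (hℓp : ℓ ≠ 𝔓.p)

include hK in
theorem ihbc_hasPrincipalDivisors :
    HasPrincipalDivisors (IsLocalRing.ResidueField ↥𝔓.P) ↥(tbBarF 𝔓 K) :=
  mzr5i_hasPrincipalDivisors 𝔓 K hK

include h49 hK hℓ hℓK hℓp in
theorem ihbc_alphaC_finite :
    FiniteAlong (IsLocalRing.ResidueField ↥𝔓.P) (dlhAlphaC (IsLocalRing.ResidueField ↥𝔓.P) K ℓ) :=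
  dlh_finite_alphaC 𝔓 h49 hK hℓ hℓK hℓp

include h49 hK hℓ hℓK hℓp in
theorem ihbc_alphaC_norm
    [HasPrincipalDivisors (IsLocalRing.ResidueField ↥𝔓.P) ↥(tbBarF 𝔓 (K * ℓ))] :
    NormFormulaAlong (IsLocalRing.ResidueField ↥𝔓.P)
      (dlhAlphaC (IsLocalRing.ResidueField ↥𝔓.P) K ℓ)
      (ihbc_alphaC_finite 𝔓 K ℓ h49 hK hℓ hℓK hℓp) := by
  haveI : IsAlgClosed (IsLocalRing.ResidueField ↥𝔓.P) := tb_isAlgClosed_residueField 𝔓.P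
  haveI := tbq_bar_isSeparable (𝔓 := 𝔓) (N := K) hK
  exact mzr5n_normFormulaAlong (tbq_bar_isFunctionFieldGen 𝔓 K)
    (tbq_bar_isFunctionFieldGen 𝔓 (K * ℓ)) _ (mzr5i_alphaC_integral 𝔓 K ℓ) _
    (dlh_separable_alphaC 𝔓 h49 hK hℓ hℓp)

/-- **the Hecke operator `T̃_ℓ = ᾱ_* β̄^*` on the classes of the reduced curve at a rigid level** -/
def ihbcTBar : Pic0 (IsLocalRing.ResidueField ↥𝔓.P) ↥(tbBarF 𝔓 K) →+
    Pic0 (IsLocalRing.ResidueField ↥𝔓.P) ↥(tbBarF 𝔓 K) :=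
  haveI := ihbc_hasPrincipalDivisors 𝔓 (K * ℓ) (dlh_not_dvd_mul 𝔓 hK hℓ hℓp)
  Pic0.correspondence (dlhBetaC (IsLocalRing.ResidueField ↥𝔓.P) K ℓ)
    (dlhAlphaC (IsLocalRing.ResidueField ↥𝔓.P) K ℓ)
    (mzr5p_integral_beta (IsLocalRing.ResidueField ↥𝔓.P) K ℓ) (mzr5i_alphaC_integral 𝔓 K ℓ)
    (mzr5_beta_hFIb 𝔓 K ℓ (dlh_not_dvd_mul 𝔓 hK hℓ hℓp) hℓ)
    (ihbc_alphaC_finite 𝔓 K ℓ h49 hK hℓ hℓK hℓp)
    (ihbc_alphaC_norm 𝔓 K ℓ h49 hK hℓ hℓK hℓp)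

theorem ihbcTBar_mk
    [HasPrincipalDivisors (IsLocalRing.ResidueField ↥𝔓.P) ↥(tbBarF 𝔓 (K * ℓ))]
    (D : Divisor.degZero (K := IsLocalRing.ResidueField ↥𝔓.P) (F := ↥(tbBarF 𝔓 K))) :
    ihbcTBar 𝔓 K ℓ h49 hK hℓ hℓK hℓp (Pic0.mk D)
      = Pic0.mk (Pic0.degZeroCorrespondence (dlhBetaC (IsLocalRing.ResidueField ↥𝔓.P) K ℓ)
          (dlhAlphaC (IsLocalRing.ResidueField ↥𝔓.P) K ℓ)
          (mzr5p_integral_beta (IsLocalRing.ResidueField ↥𝔓.P) K ℓ) (mzr5i_alphaC_integral 𝔓 K ℓ)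
          (mzr5_beta_hFIb 𝔓 K ℓ (dlh_not_dvd_mul 𝔓 hK hℓ hℓp) hℓ) D) := rfl

theorem ihbc_t3bRed_mk
    (D : Divisor.degZero (K := Qb) (F := ↥(modularFunctionFieldBar K))) :
    t3bRed (t3aOK 𝔓 K hK) (t3a_good_modular 𝔓 K h49 hK) (Pic0.mk D)
      = Pic0.mk (t3aRedDiv0 (t3a_good_modular 𝔓 K h49 hK) D) := rfl

/-- **(F1)**: the reduction map intertwines `T_ℓ` and `T̃_ℓ`, on all points -/
theorem ihbc_red_hecke (y : JZero K) :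
    t3bRed (t3aOK 𝔓 K hK) (t3a_good_modular 𝔓 K h49 hK) (heckeOperatorBar K ⟨ℓ, hℓ⟩ y)
      = ihbcTBar 𝔓 K ℓ h49 hK hℓ hℓK hℓp
          (t3bRed (t3aOK 𝔓 K hK) (t3a_good_modular 𝔓 K h49 hK) y) := by
  haveI : IsAlgClosed (IsLocalRing.ResidueField ↥𝔓.P) := tb_isAlgClosed_residueField 𝔓.P
  haveI := ihbc_hasPrincipalDivisors 𝔓 (K * ℓ) (dlh_not_dvd_mul 𝔓 hK hℓ hℓp)
  obtain ⟨D, rfl⟩ := Pic0.mk_surjective y
  have h1 : heckeOperatorBar K ⟨ℓ, hℓ⟩ (Pic0.mk D)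
      = Pic0.mk ⟨heckeDivBar (t3h_alphaIntegral K ℓ) (t3h_betaIntegral K ℓ) (D : Divisor Qb _),
          Divisor.correspondence_mem_degZero _ _ _ _ (t3h_betaFundamental K ℓ) D.2⟩ :=
    (heckeOperatorBar_apply (N := K) (⟨ℓ, hℓ⟩ : Nat.Primes) (Pic0.mk D)).trans
      (t3h_heckeOperatorAlong_mk K ℓ D)
  refine (congrArg (t3bRed (t3aOK 𝔓 K hK) (t3a_good_modular 𝔓 K h49 hK)) h1).trans ?_
  refine (ihbc_t3bRed_mk 𝔓 K h49 hK _).trans ?_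
  refine Eq.trans ?_ (congrArg (ihbcTBar 𝔓 K ℓ h49 hK hℓ hℓK hℓp)
    (ihbc_t3bRed_mk 𝔓 K h49 hK D)).symm
  refine Eq.trans ?_ (ihbcTBar_mk 𝔓 K ℓ h49 hK hℓ hℓK hℓp _).symm
  refine congrArg Pic0.mk (Subtype.ext ?_)
  refine (coe_t3aRedDiv0 (t3a_good_modular 𝔓 K h49 hK) _).trans ?_
  refine Eq.trans ?_ (Pic0.coe_degZeroCorrespondence _ _ _ _ _ _).symm
  have h2 := mzr5_hecke_red 𝔓 K ℓ h49 hK (dlh_not_dvd_mul 𝔓 hK hℓ hℓp) hℓ hℓK (D : Divisor Qb _)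
  exact h2

include h49 hK hℓ hℓK hℓp in
/-- **(F2)**: `T̃_ℓ` maps the Kummer class of `ȳ` to the Kummer class of `tkrTilde ℓ ȳ` -/
theorem ihbcTBar_class [HasPrincipalDivisors (IsLocalRing.ResidueField ↥𝔓.P) ↥(tbBarF 𝔓 K)]
    {m : ℕ} (hm : m ≠ 0) (yb : (↥(tbBarF 𝔓 K))ˣ)
    (hyb : ∀ s : Place (IsLocalRing.ResidueField ↥𝔓.P) ↥(tbBarF 𝔓 K),
      (m : ℤ) ∣ s.ord (yb : ↥(tbBarF 𝔓 K)))
    (ζ : (↥𝔓.P)ˣ)
    (hζK : IsPrimitiveRoot ((Units.map (𝔓.P.subtype : ↥𝔓.P →* Qb) ζ : Qbˣ) : Qb) ℓ)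
    (hζk : IsPrimitiveRoot ((Units.map ((IsLocalRing.residue ↥𝔓.P : ↥𝔓.P →+*
        IsLocalRing.ResidueField ↥𝔓.P) : ↥𝔓.P →* IsLocalRing.ResidueField ↥𝔓.P) ζ :
        (IsLocalRing.ResidueField ↥𝔓.P)ˣ) : IsLocalRing.ResidueField ↥𝔓.P) ℓ)
    (yb' : (↥(tbBarF 𝔓 K))ˣ)
    (hyb' : ((yb' : ↥(tbBarF 𝔓 K)) : LaurentSeries (IsLocalRing.ResidueField ↥𝔓.P))
      = tkrTilde ℓ hζk ((yb : ↥(tbBarF 𝔓 K)) : LaurentSeries (IsLocalRing.ResidueField ↥𝔓.P))) :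
    ∃ h' : ∀ s : Place (IsLocalRing.ResidueField ↥𝔓.P) ↥(tbBarF 𝔓 K),
        (m : ℤ) ∣ s.ord (yb' : ↥(tbBarF 𝔓 K)),
      ihbcTBar 𝔓 K ℓ h49 hK hℓ hℓK hℓp (alpfClass hm yb hyb) = alpfClass hm yb' h' := by
  haveI := ihbc_hasPrincipalDivisors 𝔓 (K * ℓ) (dlh_not_dvd_mul 𝔓 hK hℓ hℓp)
  have hn : (yb' : ↥(tbBarF 𝔓 K))
      = ihbcNormAlong (dlhAlphaC (IsLocalRing.ResidueField ↥𝔓.P) K ℓ)
          (dlhBetaC (IsLocalRing.ResidueField ↥𝔓.P) K ℓ (yb : ↥(tbBarF 𝔓 K))) := by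
    refine Subtype.ext ?_
    rw [hyb']
    exact (dlh_norm_beta 𝔓 h49 hK hℓ hℓK hℓp ζ hζK hζk (yb : ↥(tbBarF 𝔓 K))).symm
  exact ihbc_corr_class (dlhBetaC (IsLocalRing.ResidueField ↥𝔓.P) K ℓ)
    (dlhAlphaC (IsLocalRing.ResidueField ↥𝔓.P) K ℓ)
    (mzr5p_integral_beta (IsLocalRing.ResidueField ↥𝔓.P) K ℓ) (mzr5i_alphaC_integral 𝔓 K ℓ)
    (ihbc_alphaC_finite 𝔓 K ℓ h49 hK hℓ hℓK hℓp) (ihbc_alphaC_norm 𝔓 K ℓ h49 hK hℓ hℓK hℓp)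
    (mzr5_beta_hFIb 𝔓 K ℓ (dlh_not_dvd_mul 𝔓 hK hℓ hℓp) hℓ) hm yb hyb yb' hn

end Modular

end

end Fermat.Agent.Ihara
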