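/-
IHARA track, package [B], sub-package (B3) (helper3), part 7: **the comparison** `IhbCmp`.

`ihbc_cmp` : `IhbCmp 𝔓 M p W` from
* the finiteness of the classes of the reduced curve at the level `M * 2` fixed by a power of the
  Frobenius (helper6, `ihbq_fixed_finite`), and
* the involution of `X₀(2M) / X₀(M)` and its reduction (`IhbtInvol`, lead).

Proof.  `x̄ := [div ȳ / p] ∈ Pic⁰(F̄_K)[p]`, `K = M * 2`.  `T̃_ℓ x̄ = a_ℓ x̄` (`ihbcTBar_class`), `τ̄ x̄ = x̄`.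
Lift `x̄ = R x`, `x + τ x = π^* z`.  The killer `h` (`ihbc_exists_killer`, from `dlwEig M p W = ⊥`)
satisfies `R (h (π^* z)) = 0` (`ihbc_pull_zero`); but `R (h (π^* z)) = h̃ (x̄ + τ̄ x̄) = 2 θ(h) x̄`
(`ihbc_red_hecke`), and `2 θ(h)` is prime to `p`: `x̄ = 0`, i.e. `ȳ = c · g^p`.
-/
import Mathlib
import Fermat.Agent.Lib.Ihara.B.Cmp.RedHecke
import Fermat.Agent.Lib.Ihara.B.Cmp.PullZero
import Fermat.Agent.Lib.Ihara.B.Tau.Defs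
import Fermat.Agent.Lib.Alpha.Inv.LiftPlace
import Fermat.Agent.Lib.Alpha.Fin.Open
import Fermat.Agent.Lib.Delta.Slope.Phi
import Fermat.Agent.Lib.Delta.Wire.EigenSpace

set_option autoImplicit false
set_option linter.unusedSectionVars false
set_option linter.unusedVariables false
set_option linter.style.haveILetI false
set_option synthInstance.maxHeartbeats 400000

namespace Fermat.Agent.Ihara

open ModularCurve Fermat.Agent.T1 Fermat.Agent.T3 Fermat.Agent.Delta AlgebraicCurve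
  Fermat.Agent.Curve Fermat.Agent.TW Fermat.Agent.Alpha Fermat.Agent.Mazur HahnSeries

local notation "Qb" => AlgebraicClosure ℚ
local notation "GQ" => (AlgebraicClosure ℚ ≃ₐ[ℚ] AlgebraicClosure ℚ)

noncomputable section

/-! ### Generic lemmas -/

section Generic

/-- an eigenvector of the generators is an eigenvector of every polynomial -/
theorem ihbc_free_eigen {V : Type*} [AddCommGroup V] (S : Set Nat.Primes)
    (ρ : FreeAlgebra ℤ ↥S →ₐ[ℤ] Module.End ℤ V) (a : Nat.Primes → ℤ) (v : V)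
    (hv : ∀ ℓ : ↥S, ρ (FreeAlgebra.ι ℤ ℓ) v = a ℓ.1 • v) (h : FreeAlgebra ℤ ↥S) :
    ρ h v = ihbcThetaZ S a h • v := by
  induction h using FreeAlgebra.induction with
  | grade0 c =>
    rw [AlgHom.commutes, AlgHom.commutes, Module.algebraMap_end_apply]
    rfl
  | grade1 ℓ => rw [hv ℓ, ihbcThetaZ_ι]
  | mul x y hx hy =>
    rw [map_mul, map_mul, Module.End.mul_apply, hy, map_zsmul, hx, smul_smul, mul_comm]
  | add x y hx hy =>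
    rw [map_add, map_add, LinearMap.add_apply, hx, hy, add_smul]

/-- an element killed by two coprime integers vanishes -/
theorem ihbc_eq_zero_of_coprime {V : Type*} [AddCommGroup V] (v : V) (m n : ℤ)
    (h : IsCoprime m n) (hm : m • v = 0) (hn : n • v = 0) : v = 0 := by
  obtain ⟨u, w, huw⟩ := h
  have h1 : (u * m + w * n) • v = 0 := by
    rw [add_smul, mul_smul, mul_smul, hm, hn, smul_zero, smul_zero, add_zero]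
  rwa [huw, one_smul] at h1

/-- a homomorphism intertwining the generators intertwines every polynomial -/
theorem ihbc_free_intertwine {V V' : Type*} [AddCommGroup V] [AddCommGroup V']
    (S : Set Nat.Primes) (ρ : FreeAlgebra ℤ ↥S →ₐ[ℤ] Module.End ℤ V)
    (ρ' : FreeAlgebra ℤ ↥S →ₐ[ℤ] Module.End ℤ V') (R : V →+ V')
    (hR : ∀ (ℓ : ↥S) (y : V), R (ρ (FreeAlgebra.ι ℤ ℓ) y) = ρ' (FreeAlgebra.ι ℤ ℓ) (R y))
    (h : FreeAlgebra ℤ ↥S) (y : V) : R (ρ h y) = ρ' h (R y) := by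
  induction h using FreeAlgebra.induction generalizing y with
  | grade0 c =>
    rw [AlgHom.commutes, AlgHom.commutes, Module.algebraMap_end_apply,
      Module.algebraMap_end_apply, map_zsmul]
  | grade1 ℓ => exact hR ℓ y
  | mul a b ha hb =>
    rw [map_mul, map_mul, Module.End.mul_apply, Module.End.mul_apply, ha, hb]
  | add a b ha hb =>
    rw [map_add, map_add, LinearMap.add_apply, LinearMap.add_apply, map_add, ha, hb]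

variable {k E : Type*} [Field k] [Field E] [Algebra k E] [HasPrincipalDivisors k E]

/-- Kummer classes of exponent `m` are `m`-torsion -/
theorem ihbc_class_torsion {m : ℕ} (hm : m ≠ 0) (y : Eˣ)
    (hy : ∀ v : Place k E, (m : ℤ) ∣ v.ord (y : E)) : (m : ℤ) • alpfClass hm y hy = 0 := by
  unfold alpfClass Pic0.mk
  rw [← QuotientAddGroup.mk_zsmul, QuotientAddGroup.eq_zero_iff, AddSubgroup.mem_addSubgroupOf]
  refine ⟨(y : E), y.ne_zero, fun v => ?_⟩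
  show ((m : ℤ) • alpfDivQuot (K := k) m y) v = _
  rw [alpf_smul_divQuot hy, alpfDiv_apply]

/-- a function whose Kummer class vanishes is a constant times an `m`-th power -/
theorem ihbc_class_eq_zero [IsAlgClosed k] {x : E} (hx : IsFunctionFieldGen k E x)
    [Algebra.IsSeparable ↥(IntermediateField.adjoin k {x}) E]
    {m : ℕ} (hm : m ≠ 0) (y : Eˣ) (hy : ∀ v : Place k E, (m : ℤ) ∣ v.ord (y : E))
    (h0 : alpfClass hm y hy = 0) :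
    ∃ (c : k) (g : Eˣ), c ≠ 0 ∧ (y : E) = algebraMap k E c * ((g ^ m : Eˣ) : E) := by
  have hm' : (m : ℤ) ≠ 0 := by exact_mod_cast hm
  unfold alpfClass Pic0.mk at h0
  rw [QuotientAddGroup.eq_zero_iff, AddSubgroup.mem_addSubgroupOf] at h0
  obtain ⟨g, hg0, hg⟩ := h0
  have hgv : ∀ v : Place k E, v.ord (y : E) = (m : ℤ) * v.ord g := by
    intro v
    have h1 : alpfDivQuot (K := k) m y v = v.ord g := hg v
    rw [alpfDivQuot_apply] at h1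
    rw [← h1, Int.mul_ediv_cancel' (hy v)]
  have hgm0 : g ^ m ≠ 0 := pow_ne_zero m hg0
  have hord : ∀ v : Place k E, v.ord ((y : E) / g ^ m) = 0 := by
    intro v
    rw [div_eq_mul_inv, v.ord_mul y.ne_zero (inv_ne_zero hgm0), v.ord_inv, hgv v, ← zpow_natCast,
      v.ord_zpow]
    ring
  obtain ⟨c, hc⟩ := t3a_const_of_ord_eq_zero hx hord
  have hc0 : c ≠ 0 := by
    rintro rfl
    rw [map_zero] at hc
    exact div_ne_zero y.ne_zero hgm0 hc.symm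
  refine ⟨c, Units.mk0 g hg0, hc0, ?_⟩
  rw [hc, Units.val_pow_eq_pow_val, Units.val_mk0, div_mul_cancel₀ _ hgm0]

end Generic

/-! ### The reduction map at a rigid level -/

section Rigid

attribute [local instance 5000] dlhAlgK

variable (𝔓 : FFPlace) (K : ℕ) [NeZero K] (h49 : 4 ∣ K ∨ 9 ∣ K) (hK : ¬ 𝔓.p ∣ K)

/-- **the reduction map on divisor classes is surjective** -/
theorem ihbc_red_surjective :
    Function.Surjective (t3bRed (t3aOK 𝔓 K hK) (t3a_good_modular 𝔓 K h49 hK)) := by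
  haveI : IsAlgClosed (IsLocalRing.ResidueField ↥𝔓.P) := tb_isAlgClosed_residueField 𝔓.P
  intro c
  obtain ⟨Db, rfl⟩ := Pic0.mk_surjective c
  have hred := alpi_red_alpiLiftDiv 𝔓 K h49 hK (Db : Divisor _ _)
  have hdeg : alpiLiftDiv 𝔓 K h49 hK (Db : Divisor _ _)
      ∈ Divisor.degZero (K := Qb) (F := ↥(modularFunctionFieldBar K)) := by
    rw [Divisor.mem_degZero, ← alpr_degree_red (t3a_good_modular 𝔓 K h49 hK), hred]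
    exact Db.2
  refine ⟨Pic0.mk ⟨_, hdeg⟩, ?_⟩
  refine (ihbc_t3bRed_mk 𝔓 K h49 hK _).trans ?_
  refine congrArg Pic0.mk (Subtype.ext ?_)
  refine (coe_t3aRedDiv0 (t3a_good_modular 𝔓 K h49 hK) _).trans ?_
  exact hred

variable (S : Set Nat.Primes) (hS : ∀ ℓ ∈ S, ¬ (ℓ : ℕ) ∣ K ∧ (ℓ : ℕ) ≠ 𝔓.p)

/-- polynomials in the Hecke operators acting on the classes of the reduced curve -/
def ihbcRhoBar : FreeAlgebra ℤ ↥S →ₐ[ℤ]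
    Module.End ℤ (Pic0 (IsLocalRing.ResidueField ↥𝔓.P) ↥(tbBarF 𝔓 K)) :=
  FreeAlgebra.lift ℤ (fun ℓ : ↥S =>
    haveI : NeZero (ℓ.1 : ℕ) := ⟨ℓ.1.2.ne_zero⟩
    (ihbcTBar 𝔓 K (ℓ.1 : ℕ) h49 hK ℓ.1.2 (hS ℓ.1 ℓ.2).1 (hS ℓ.1 ℓ.2).2).toIntLinearMap)

theorem ihbcRhoBar_ι (ℓ : ↥S) (c : Pic0 (IsLocalRing.ResidueField ↥𝔓.P) ↥(tbBarF 𝔓 K)) :
    ihbcRhoBar 𝔓 K h49 hK S hS (FreeAlgebra.ι ℤ ℓ) c
      = haveI : NeZero (ℓ.1 : ℕ) := ⟨ℓ.1.2.ne_zero⟩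
        ihbcTBar 𝔓 K (ℓ.1 : ℕ) h49 hK ℓ.1.2 (hS ℓ.1 ℓ.2).1 (hS ℓ.1 ℓ.2).2 c := by
  unfold ihbcRhoBar
  rw [FreeAlgebra.lift_ι_apply]
  rfl

/-- the reduction map intertwines the polynomials in the Hecke operators -/
theorem ihbc_red_rho (h : FreeAlgebra ℤ ↥S) (y : JZero K) :
    t3bRed (t3aOK 𝔓 K hK) (t3a_good_modular 𝔓 K h49 hK) (ihbcRhoJ K S h y)
      = ihbcRhoBar 𝔓 K h49 hK S hS h
          (t3bRed (t3aOK 𝔓 K hK) (t3a_good_modular 𝔓 K h49 hK) y) := by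
  refine ihbc_free_intertwine S (ihbcRhoJ K S) (ihbcRhoBar 𝔓 K h49 hK S hS)
    (t3bRed (t3aOK 𝔓 K hK) (t3a_good_modular 𝔓 K h49 hK)) (fun ℓ y => ?_) h y
  haveI : NeZero (ℓ.1 : ℕ) := ⟨ℓ.1.2.ne_zero⟩
  refine Eq.trans ?_ (ihbcRhoBar_ι 𝔓 K h49 hK S hS ℓ _).symm
  refine (congrArg (t3bRed (t3aOK 𝔓 K hK) (t3a_good_modular 𝔓 K h49 hK))
    (congrFun (congrArg DFunLike.coe (ihbcRhoJ_ι K S ℓ)) y)).trans ?_
  exact ihbc_red_hecke 𝔓 K (ℓ.1 : ℕ) h49 hK ℓ.1.2 (hS ℓ.1 ℓ.2).1 (hS ℓ.1 ℓ.2).2 y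

end Rigid

/-! ### The comparison -/

section Main

attribute [local instance 5000] dlhAlgK

variable (𝔓 : FFPlace) (M : ℕ) [NeZero M]

theorem ihbc_coe_algebraMap (c : IsLocalRing.ResidueField ↥𝔓.P) :
    ((algebraMap (IsLocalRing.ResidueField ↥𝔓.P) ↥(tbBarF 𝔓 M) c : ↥(tbBarF 𝔓 M)) :
      LaurentSeries (IsLocalRing.ResidueField ↥𝔓.P)) = HahnSeries.C c := by
  rw [HahnSeries.C_apply, ← algebraMap_laurentSeries_eq_single]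
  rfl

/-- Step 1: the class of `ȳ` is an eigenvector of the `T̃_ℓ` -/
theorem ihbc_cmp_eigen (K : ℕ) [NeZero K] (h49 : 4 ∣ K ∨ 9 ∣ K) (hK : ¬ 𝔓.p ∣ K)
    (S : Set Nat.Primes) (hS : ∀ ℓ ∈ S, ¬ (ℓ : ℕ) ∣ K ∧ (ℓ : ℕ) ≠ 𝔓.p)
    [HasPrincipalDivisors (IsLocalRing.ResidueField ↥𝔓.P) ↥(tbBarF 𝔓 K)]
    {p : ℕ} (hp0 : p ≠ 0) (a : Nat.Primes → ℤ) (yb : (↥(tbBarF 𝔓 K))ˣ)
    (hyb : ∀ s : Place (IsLocalRing.ResidueField ↥𝔓.P) ↥(tbBarF 𝔓 K),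
      (p : ℤ) ∣ s.ord (yb : ↥(tbBarF 𝔓 K)))
    (hT : ∀ (ℓ : ℕ) [NeZero ℓ] (hℓ : ℓ.Prime), (⟨ℓ, hℓ⟩ : Nat.Primes) ∈ S →
      ∀ (ζ : (↥𝔓.P)ˣ)
        (hζK : IsPrimitiveRoot ((Units.map (𝔓.P.subtype : ↥𝔓.P →* Qb) ζ : Qbˣ) : Qb) ℓ)
        (hζk : IsPrimitiveRoot ((Units.map ((IsLocalRing.residue ↥𝔓.P : ↥𝔓.P →+*
          IsLocalRing.ResidueField ↥𝔓.P) : ↥𝔓.P →* IsLocalRing.ResidueField ↥𝔓.P) ζ :
          (IsLocalRing.ResidueField ↥𝔓.P)ˣ) : IsLocalRing.ResidueField ↥𝔓.P) ℓ),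
        ∃ (c : IsLocalRing.ResidueField ↥𝔓.P) (ub : (↥(tbBarF 𝔓 K))ˣ), c ≠ 0 ∧
          tkrTilde ℓ hζk ((yb : ↥(tbBarF 𝔓 K)) : LaurentSeries (IsLocalRing.ResidueField ↥𝔓.P))
            = HahnSeries.C c * (((yb ^ (a ⟨ℓ, hℓ⟩) * ub ^ p : (↥(tbBarF 𝔓 K))ˣ) :
                ↥(tbBarF 𝔓 K)) : LaurentSeries (IsLocalRing.ResidueField ↥𝔓.P)))
    (ℓ : ↥S) :
    ihbcRhoBar 𝔓 K h49 hK S hS (FreeAlgebra.ι ℤ ℓ) (alpfClass hp0 yb hyb)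
      = a ℓ.1 • alpfClass hp0 yb hyb := by
  haveI : NeZero (ℓ.1 : ℕ) := ⟨ℓ.1.2.ne_zero⟩
  obtain ⟨ζ, hζK, hζk⟩ := dls_exists_zeta 𝔓 ℓ.1.2 (hS ℓ.1 ℓ.2).2
  obtain ⟨c, ub, hc, heq⟩ := hT (ℓ.1 : ℕ) ℓ.1.2 ℓ.2 ζ hζK hζk
  have hc0 : algebraMap (IsLocalRing.ResidueField ↥𝔓.P) ↥(tbBarF 𝔓 K) c ≠ 0 :=
    (map_ne_zero _).mpr hc
  obtain ⟨yb', hyb'def⟩ : ∃ yb' : (↥(tbBarF 𝔓 K))ˣ,
      (yb' : ↥(tbBarF 𝔓 K)) =
        algebraMap (IsLocalRing.ResidueField ↥𝔓.P) ↥(tbBarF 𝔓 K) c *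
          ((yb ^ (a ℓ.1) * ub ^ p : (↥(tbBarF 𝔓 K))ˣ) : ↥(tbBarF 𝔓 K)) :=
    ⟨Units.mk0 _ hc0 * (yb ^ (a ℓ.1) * ub ^ p), by rw [Units.val_mul, Units.val_mk0]⟩
  have hyb' : ((yb' : ↥(tbBarF 𝔓 K)) : LaurentSeries (IsLocalRing.ResidueField ↥𝔓.P))
      = tkrTilde (ℓ.1 : ℕ) hζk ((yb : ↥(tbBarF 𝔓 K)) :
          LaurentSeries (IsLocalRing.ResidueField ↥𝔓.P)) := by
    rw [heq, hyb'def, MulMemClass.coe_mul, ihbc_coe_algebraMap]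
    rfl
  have hh1 := ihbcTBar_class 𝔓 K (ℓ.1 : ℕ) h49 hK ℓ.1.2 (hS ℓ.1 ℓ.2).1 (hS ℓ.1 ℓ.2).2 hp0 yb
  have hh2 := hh1 hyb
  have hh3 := hh2 ζ hζK hζk
  have hh4 := hh3 yb' hyb'
  refine Exists.elim hh4 fun h' hT' => ?_
  have hh5 := ihbcRhoBar_ι 𝔓 K h49 hK S hS ℓ (alpfClass hp0 yb hyb)
  have hh6 := ihbc_class_eq_zsmul hp0 yb yb' ub c hc (a ℓ.1) hyb h' hyb'def
  exact hh5.trans (hT'.trans hh6)

/-- Step 2: the class of `ȳ` vanishes -/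
theorem ihbc_cmp_zero (h49 : 4 ∣ M * 2 ∨ 9 ∣ M * 2) (hK : ¬ 𝔓.p ∣ M * 2)
    (S : Set Nat.Primes) (hSM : ∀ ℓ ∈ S, ¬ (ℓ : ℕ) ∣ M)
    (hS : ∀ ℓ ∈ S, ¬ (ℓ : ℕ) ∣ M * 2 ∧ (ℓ : ℕ) ≠ 𝔓.p)
    (p : ℕ) (hp : p.Prime) (hp2 : p ≠ 2) (a : Nat.Primes → ℤ)
    (hfin : ∀ f : ℕ, 0 < f →
      {c : Pic0 (IsLocalRing.ResidueField ↥𝔓.P) ↥(tbBarF 𝔓 (M * 2)) |
        (t3bPhi 𝔓 (M * 2)) ^ f • c = c}.Finite)
    (hτ : IhbtInvol 𝔓 M hK)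
    (h0 : ∀ x : JZero M, p • x = 0 → (∀ ℓ ∈ S, heckeOperatorBar M ℓ x = a ℓ • x) → x = 0)
    [HasPrincipalDivisors (IsLocalRing.ResidueField ↥𝔓.P) ↥(tbBarF 𝔓 (M * 2))]
    (yb : (↥(tbBarF 𝔓 (M * 2)))ˣ)
    (hybM : ((yb : ↥(tbBarF 𝔓 (M * 2))) : LaurentSeries (IsLocalRing.ResidueField ↥𝔓.P))
      ∈ tbBarF 𝔓 M)
    (hyb : ∀ s : Place (IsLocalRing.ResidueField ↥𝔓.P) ↥(tbBarF 𝔓 (M * 2)),
      (p : ℤ) ∣ s.ord (yb : ↥(tbBarF 𝔓 (M * 2))))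
    (heig : ∀ ℓ : ↥S, ihbcRhoBar 𝔓 (M * 2) h49 hK S hS (FreeAlgebra.ι ℤ ℓ)
      (alpfClass hp.ne_zero yb hyb) = a ℓ.1 • alpfClass hp.ne_zero yb hyb) :
    alpfClass hp.ne_zero yb hyb = 0 := by
  haveI : IsAlgClosed (IsLocalRing.ResidueField ↥𝔓.P) := tb_isAlgClosed_residueField 𝔓.P
  obtain ⟨τ, τb, hcompat, hτfix, hτpull⟩ := hτ
  obtain ⟨h, hθ, hkill⟩ := ihbc_exists_killer M S hSM p hp a h0
  have hpxb : (p : ℤ) • alpfClass hp.ne_zero yb hyb = 0 := ihbc_class_torsion hp.ne_zero yb hyb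
  have heig' := ihbc_free_eigen S (ihbcRhoBar 𝔓 (M * 2) h49 hK S hS) a
    (alpfClass hp.ne_zero yb hyb) heig h
  -- `τ̄` fixes the class
  have hτxb : SemilinearAut.ofAlgAut τb • alpfClass hp.ne_zero yb hyb
      = alpfClass hp.ne_zero yb hyb := by
    rw [alpfClass_smul hp.ne_zero]
    congr 1
    refine Units.ext ?_
    rw [alpfSmulUnit_coe, SemilinearAut.ofAlgAut_smul]
    exact hτfix _ hybM
  -- lift the class and descend `x + τ x` to the level `M`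
  obtain ⟨x, hx⟩ := ihbc_red_surjective 𝔓 (M * 2) h49 hK (alpfClass hp.ne_zero yb hyb)
  obtain ⟨z, hz⟩ := hτpull x
  have h1 := ihbc_pull_zero 𝔓 (Dvd.intro 2 rfl : M ∣ M * 2) h49 hK S (fun ℓ hℓ => (hS ℓ hℓ).1)
    hfin h hkill z
  have hRτ : t3bRed (t3aOK 𝔓 (M * 2) hK) (t3a_good_modular 𝔓 (M * 2) h49 hK)
      (SemilinearAut.ofAlgAut τ • x) = SemilinearAut.ofAlgAut τb •
        t3bRed (t3aOK 𝔓 (M * 2) hK) (t3a_good_modular 𝔓 (M * 2) h49 hK) x :=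
    t3b_t3aRed_smul (t3a_good_modular 𝔓 (M * 2) h49 hK) hcompat x
  have h2 := ihbc_red_rho 𝔓 (M * 2) h49 hK S hS h (x + SemilinearAut.ofAlgAut τ • x)
  have h3 : t3bRed (t3aOK 𝔓 (M * 2) hK) (t3a_good_modular 𝔓 (M * 2) h49 hK)
      (x + SemilinearAut.ofAlgAut τ • x)
      = alpfClass hp.ne_zero yb hyb + alpfClass hp.ne_zero yb hyb := by
    refine (AddMonoidHom.map_add _ _ _).trans ?_
    rw [hRτ, hx, hτxb]
  have h4 : ihbcRhoBar 𝔓 (M * 2) h49 hK S hS h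
      (alpfClass hp.ne_zero yb hyb + alpfClass hp.ne_zero yb hyb) = 0 :=
    ((congrArg (ihbcRhoBar 𝔓 (M * 2) h49 hK S hS h) h3).symm.trans h2.symm).trans
      ((congrArg (fun w => t3bRed (t3aOK 𝔓 (M * 2) hK) (t3a_good_modular 𝔓 (M * 2) h49 hK)
        (ihbcRhoJ (M * 2) S h w)) hz).symm.trans h1)
  have h5 : ihbcThetaZ S a h • alpfClass hp.ne_zero yb hyb
      + ihbcThetaZ S a h • alpfClass hp.ne_zero yb hyb = 0 := by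
    rw [← heig', ← LinearMap.map_add]
    exact h4
  -- conclude
  have hθZ : ¬ (p : ℤ) ∣ ihbcThetaZ S a h := by
    intro hd
    apply hθ
    rw [ihbcTheta_eq]
    exact (ZMod.intCast_zmod_eq_zero_iff_dvd _ p).mpr hd
  have hpZ : Prime (p : ℤ) := Nat.prime_iff_prime_int.mp hp
  have hcop : IsCoprime (p : ℤ) (2 * ihbcThetaZ S a h) := by
    refine (Prime.coprime_iff_not_dvd hpZ).mpr ?_
    intro hd
    rcases hpZ.dvd_or_dvd hd with h4 | h4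
    · have h5 : p ∣ 2 := by exact_mod_cast h4
      exact hp2 ((Nat.prime_dvd_prime_iff_eq hp Nat.prime_two).mp h5)
    · exact hθZ h4
  have h6 : (2 * ihbcThetaZ S a h) • alpfClass hp.ne_zero yb hyb = 0 := by
    rw [mul_smul, two_zsmul]
    exact h5
  exact ihbc_eq_zero_of_coprime _ _ _ hcop hpxb h6

/-- **(B3), the comparison**, from the finiteness of the Frobenius-fixed classes of the reduced curve
and the involution of `X₀(2M) / X₀(M)` -/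
theorem ihbc_cmp (h2M : 2 ∣ M) (hK : ¬ 𝔓.p ∣ M * 2) (p : ℕ) (hp : p.Prime) (hp2 : p ≠ 2)
    (W : WeierstrassCurve ℤ) (hWq : ((𝔓.p : ℕ) : ℤ) ∣ W.Δ)
    (hfin : ∀ f : ℕ, 0 < f →
      {c : Pic0 (IsLocalRing.ResidueField ↥𝔓.P) ↥(tbBarF 𝔓 (M * 2)) |
        (t3bPhi 𝔓 (M * 2)) ^ f • c = c}.Finite)
    (hτ : IhbtInvol 𝔓 M hK) : IhbCmp 𝔓 M p W := by
  intro hEig yb hybM hyb hT
  haveI : IsAlgClosed (IsLocalRing.ResidueField ↥𝔓.P) := tb_isAlgClosed_residueField 𝔓.P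
  have h49 : 4 ∣ M * 2 ∨ 9 ∣ M * 2 := Or.inl (by
    obtain ⟨t, rfl⟩ := h2M
    exact ⟨t, by ring⟩)
  haveI := ihbc_hasPrincipalDivisors 𝔓 (M * 2) hK
  haveI := tbq_bar_isSeparable (𝔓 := 𝔓) (N := M * 2) hK
  -- the index set
  obtain ⟨S, hSdef⟩ : ∃ S : Set Nat.Primes,
      S = {ℓ : Nat.Primes | ¬ (ℓ : ℕ) ∣ M ∧ W.IsGoodPrimeFor ℓ ∧ (ℓ : ℕ) ≠ p} := ⟨_, rfl⟩
  have hSmem : ∀ ℓ : Nat.Primes, ℓ ∈ S ↔ (¬ (ℓ : ℕ) ∣ M ∧ W.IsGoodPrimeFor ℓ ∧ (ℓ : ℕ) ≠ p) := by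
    intro ℓ
    rw [hSdef]
    rfl
  have hSM : ∀ ℓ ∈ S, ¬ (ℓ : ℕ) ∣ M := fun ℓ hℓ => ((hSmem ℓ).mp hℓ).1
  have hSq : ∀ ℓ ∈ S, (ℓ : ℕ) ≠ 𝔓.p := by
    intro ℓ hℓ h
    apply ((hSmem ℓ).mp hℓ).2.1
    rw [h]
    exact hWq
  have hSK : ∀ ℓ ∈ S, ¬ (ℓ : ℕ) ∣ M * 2 := by
    intro ℓ hℓ h
    rcases (Nat.Prime.dvd_mul ℓ.2).mp h with h1 | h1
    · exact hSM ℓ hℓ h1
    · exact hSM ℓ hℓ (dvd_trans h1 h2M)
  have hS : ∀ ℓ ∈ S, ¬ (ℓ : ℕ) ∣ M * 2 ∧ (ℓ : ℕ) ≠ 𝔓.p := fun ℓ hℓ => ⟨hSK ℓ hℓ, hSq ℓ hℓ⟩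
  have h0 : ∀ x : JZero M, p • x = 0 →
      (∀ ℓ ∈ S, heckeOperatorBar M ℓ x = (fun ℓ : Nat.Primes => W.apOfModel ℓ) ℓ • x) → x = 0 := by
    intro x hpx hx
    have hmem : x ∈ dlwEig M p W :=
      ⟨hpx, fun ℓ hℓ h1 h2 h3 => hx ⟨ℓ, hℓ⟩ ((hSmem _).mpr ⟨h1, h2, h3⟩)⟩
    rw [hEig] at hmem
    exact (AddSubgroup.mem_bot).mp hmem
  have heig := ihbc_cmp_eigen 𝔓 (M * 2) h49 hK S hS hp.ne_zero
    (fun ℓ : Nat.Primes => W.apOfModel ℓ) yb hyb (by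
      intro ℓ _ hℓ hℓS ζ hζK hζk
      have hndvd : ¬ ℓ ∣ M * 2 * 𝔓.p := by
        intro hd
        rcases (Nat.Prime.dvd_mul hℓ).mp hd with h1 | h1
        · exact hSK _ hℓS h1
        · exact hSq _ hℓS ((Nat.prime_dvd_prime_iff_eq hℓ 𝔓.hp).mp h1)
      exact hT ℓ hℓ hndvd ((hSmem _).mp hℓS).2.1 ((hSmem _).mp hℓS).2.2 ζ hζK hζk)
  have hxb0 := ihbc_cmp_zero 𝔓 M h49 hK S hSM hS p hp hp2 (fun ℓ : Nat.Primes => W.apOfModel ℓ)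
    hfin hτ h0 yb hybM hyb heig
  -- `ȳ` is a constant times a `p`-th power
  obtain ⟨c, g, hc, hcg⟩ := ihbc_class_eq_zero (tbq_bar_isFunctionFieldGen 𝔓 (M * 2)) hp.ne_zero
    yb hyb hxb0
  refine ⟨c, g, hc, ?_⟩
  rw [hcg, MulMemClass.coe_mul, ihbc_coe_algebraMap]

end Main

end

end Fermat.Agent.Ihara
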