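/-
IHARA track, package [B], sub-package (B3) (helper3), part 8: **`IhbCmpAll`**, the comparison at all
even levels, from
* `ihbc_cmp`                   (helper3, `Cmp/Main.lean`),
* `ihbq_fixed_finite_modular`  (helper6, `Cmp/FinInst.lean`): finiteness of the Frobenius-fixed classes,
* `ihbt_involAll`              (lead, `Tau/Main.lean`): the involution of `X₀(2M) / X₀(M)`.
-/
import Mathlib
import Fermat.Agent.Lib.Ihara.B.Cmp.Main
import Fermat.Agent.Lib.Ihara.B.Cmp.FinInst
import Fermat.Agent.Lib.Ihara.B.Tau.Main

set_option autoImplicit false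
set_option linter.unusedSectionVars false
set_option linter.unusedVariables false
set_option linter.style.haveILetI false
set_option synthInstance.maxHeartbeats 400000

namespace Fermat.Agent.Ihara

open ModularCurve Fermat.Agent.T1 Fermat.Agent.T3 Fermat.Agent.Delta AlgebraicCurve
  Fermat.Agent.Curve Fermat.Agent.TW

/-- **(B3): the comparison at all even levels** -/
theorem ihbc_cmpAll : IhbCmpAll := by
  intro 𝔓 M _ h2M hK hq2 p hp hp5 hpq hpM W hΔ hWq hirr
  exact ihbc_cmp 𝔓 M h2M hK p hp (by omega) W hWq
    (fun f hf => ihbq_fixed_finite_modular 𝔓 (M * 2) hK f hf) (ihbt_involAll 𝔓 M h2M hK)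

end Fermat.Agent.Ihara
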